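/-
S55 / engine E1 / block LIM, leaf LIM4 (helper603): finite-level `Ш¹` versus the Prelude `sha₁`.

For a level `F` (`L : Tow.Level S`) and `A : Rep K G_ℚ`:
* `coeff A L = A^{U_F}` as a `Gal(F/ℚ)`-module, `infl₁ A L : H¹(Gal(F/ℚ), A^{U_F}) → H¹(G_ℚ, A)`
  (Mathlib inflation, injective), `resDec₁`, `sha1Fin A L = ⋂_{q ∈ S} ker (res to D_q(F))`;
* `mem_sha1Fin_iff_infl₁_mem_sha₁` : if `U_F` acts trivially on `A`, then
  `x ∈ Ш¹_F ↔ infl x ∈ sha₁ S A`;
* `mem_range_infl₁_iff`, `range_infl₁_mono`, `exists_level_mem_range_infl₁`;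
* `levelOfGalois`, `levelSup`, `levelBot`, `IsDirected (Level S) (· ≤ ·)`;
* **LIM4** `exists_level_forall_shaInfl_bijective`, `exists_level_forall_card_sha1Fin_eq`.

Mathlib + Prelude + `Spec/Tower.lean` + `Bridge/Cochain.lean` (all on main).  No sorry.
-/
import Fermat.Agent.S55.Spec.Tower
import Fermat.Agent.S55.Bridge.Cochain

set_option autoImplicit false

namespace Fermat.Agent.S55.E1.H603

open groupCohomology CategoryTheory ExtCitation Fermat.Agent.S55.Tow

noncomputable section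

variable {S : Finset Nat.Primes} {K : Type} [Field K] (A : Rep.{0, 0, 0} K GQ)

/-- `A^{U_F}` as a `Gal(F/ℚ)`-module. -/
abbrev coeff (L : Level S) : Rep.{0, 0, 0} K L.Gal := A.quotientToInvariants L.U

/-- the inclusion `A^{U_F} → A` as a morphism along `G_ℚ → Gal(F/ℚ)`. -/
def liftHom (L : Level S) : Rep.res (QuotientGroup.mk' L.U) (coeff A L) ⟶ A :=
  Rep.ofHom (A.ρ.quotientToInvariants_lift L.U)

/-- inflation `H¹(Gal(F/ℚ), A^{U_F}) → H¹(G_ℚ, A)`. -/
def infl₁ (L : Level S) : H1 (coeff A L) →ₗ[K] H1 A :=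
  (groupCohomology.map (QuotientGroup.mk' L.U) (liftHom A L) 1).hom

theorem infl₁_injective (L : Level S) : Function.Injective (infl₁ A L) :=
  (ModuleCat.mono_iff_injective (H1InfRes A L.U).f).1 inferInstance

/-- inflation of cocycles -/
def inflCoc (L : Level S) : cocycles₁ (coeff A L) →ₗ[K] cocycles₁ A :=
  (mapCocycles₁ (QuotientGroup.mk' L.U) (liftHom A L)).hom

@[simp] theorem inflCoc_apply (L : Level S) (c : cocycles₁ (coeff A L)) (g : GQ) :
    inflCoc A L c g = ((c (QuotientGroup.mk g) : coeff A L) : A) := rfl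

theorem infl₁_mk (L : Level S) (c : cocycles₁ (coeff A L)) :
    infl₁ A L ((H1π (coeff A L)).hom c) = (H1π A).hom (inflCoc A L c) := by
  exact H1π_comp_map_apply (QuotientGroup.mk' L.U) (liftHom A L) c

/-- restriction to the decomposition group at finite level. -/
def resDec₁ (L : Level S) (q : Nat.Primes) :
    H1 (coeff A L) →ₗ[K] H1 (Rep.res (L.decHom q) (coeff A L)) :=
  (groupCohomology.map (L.decHom q) (𝟙 (Rep.res (L.decHom q) (coeff A L))) 1).hom

theorem resDec₁_mk_eq_zero_iff (L : Level S) (q : Nat.Primes) (c : cocycles₁ (coeff A L)) :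
    resDec₁ A L q ((H1π (coeff A L)).hom c) = 0 ↔
      ∃ a : coeff A L, ∀ h : L.Dec q,
        c (L.decHom q h) = (coeff A L).ρ (L.decHom q h) a - a := by
  have hcomp : resDec₁ A L q ((H1π (coeff A L)).hom c) =
      (H1π (Rep.res (L.decHom q) (coeff A L))).hom
        ((mapCocycles₁ (L.decHom q) (𝟙 (Rep.res (L.decHom q) (coeff A L)))).hom c) :=
    H1π_comp_map_apply (L.decHom q) (𝟙 (Rep.res (L.decHom q) (coeff A L))) c
  rw [hcomp, H1π_eq_zero_iff]
  constructor
  · rintro ⟨a, ha⟩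
    refine ⟨a, fun h => ?_⟩
    have := congrFun ha h
    rw [d₀₁_hom_apply] at this
    exact this.symm
  · rintro ⟨a, ha⟩
    refine ⟨a, ?_⟩
    funext h
    rw [d₀₁_hom_apply]
    exact (ha h).symm

/-- the finite-level Sha1. -/
def sha1Fin (L : Level S) : Submodule K (H1 (coeff A L)) :=
  ⨅ q : S, LinearMap.ker (resDec₁ A L q.1)

theorem mem_sha1Fin_mk_iff (L : Level S) (c : cocycles₁ (coeff A L)) :
    (H1π (coeff A L)).hom c ∈ sha1Fin A L ↔
      ∀ q : S, ∃ a : coeff A L, ∀ h : L.Dec q.1,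
        c (L.decHom q.1 h) = (coeff A L).ρ (L.decHom q.1 h) a - a := by
  simp only [sha1Fin, Submodule.mem_iInf, LinearMap.mem_ker]
  exact forall_congr' fun q => resDec₁_mk_eq_zero_iff A L q.1 c

/-! ### Comparison with the Prelude `sha₁` -/

theorem decHom_mk (L : Level S) (q : Nat.Primes) (h : GQp q) :
    L.decHom q (QuotientGroup.mk h) = QuotientGroup.mk (locQ q h) := rfl

theorem coe_coeff_ρ_mk (L : Level S) (g : GQ) (a : coeff A L) :
    (((coeff A L).ρ (QuotientGroup.mk g) a : coeff A L) : A) = A.ρ g (a : A) := rfl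

/-- Local coboundary condition for an inflated cocycle, in terms of the Prelude local group. -/
theorem locRes_infl₁_mk_eq_zero_iff (L : Level S) (q : Nat.Primes) (c : cocycles₁ (coeff A L)) :
    (groupCohomology.map (locQ q) (𝟙 (Rep.res (locQ q) A)) 1).hom
        ((H1π A).hom (inflCoc A L c)) = 0 ↔
      ∃ a : A, ∀ h : GQp q, ((c (QuotientGroup.mk (locQ q h)) : coeff A L) : A)
        = A.ρ (locQ q h) a - a := by
  have hcomp : (groupCohomology.map (locQ q) (𝟙 (Rep.res (locQ q) A)) 1).hom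
        ((H1π A).hom (inflCoc A L c)) =
      (H1π (Rep.res (locQ q) A)).hom
        ((mapCocycles₁ (locQ q) (𝟙 (Rep.res (locQ q) A))).hom (inflCoc A L c)) :=
    H1π_comp_map_apply (locQ q) (𝟙 (Rep.res (locQ q) A)) (inflCoc A L c)
  rw [hcomp, H1π_eq_zero_iff]
  constructor
  · rintro ⟨a, ha⟩
    refine ⟨a, fun h => ?_⟩
    have := congrFun ha h
    rw [d₀₁_hom_apply] at this
    exact this.symm
  · rintro ⟨a, ha⟩
    refine ⟨a, ?_⟩
    funext h
    rw [d₀₁_hom_apply]
    exact (ha h).symm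

theorem isLevelConstantS₁_inflCoc (L : Level S) (c : cocycles₁ (coeff A L)) :
    IsLevelConstantS₁ S (inflCoc A L c) := by
  refine ⟨L.F, L.unram, fun g s hs => ?_⟩
  have : (QuotientGroup.mk (g * s) : L.Gal) = QuotientGroup.mk g := by
    rw [QuotientGroup.eq]
    simpa using (L.U).inv_mem hs
  rw [inflCoc_apply, inflCoc_apply, this]

theorem infl₁_mem_continuousH1S (L : Level S) (x : H1 (coeff A L)) :
    infl₁ A L x ∈ continuousH1S S A := by
  induction x using H1_induction_on with | @h c =>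
  rw [infl₁_mk]
  exact (mem_continuousH1S_iff S A _).2 ⟨inflCoc A L c, isLevelConstantS₁_inflCoc A L c, rfl⟩

/-- Finite-level local triviality implies local triviality for the Prelude local groups. -/
theorem infl₁_mem_sha₁ (h2 : (2 : K) ≠ 0) (L : Level S) {x : H1 (coeff A L)}
    (hx : x ∈ sha1Fin A L) : infl₁ A L x ∈ sha₁ S A := by
  rw [Fermat.Agent.S55.Bridge.mem_sha₁_iff S h2]
  refine ⟨infl₁_mem_continuousH1S A L x, fun q => ?_⟩
  induction x using H1_induction_on with | @h c =>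
  rw [infl₁_mk, locRes_infl₁_mk_eq_zero_iff]
  obtain ⟨a, ha⟩ := (mem_sha1Fin_mk_iff A L c).1 hx q
  refine ⟨(a : A), fun h => ?_⟩
  have h1 := ha (QuotientGroup.mk h)
  rw [decHom_mk] at h1
  rw [h1]
  rfl

/-- Conversely, when `U_F` acts trivially on `A`. -/
theorem mem_sha1Fin_of_infl₁_mem_sha₁ (h2 : (2 : K) ≠ 0) (L : Level S)
    (hA : ∀ s ∈ L.U, ∀ a : A, A.ρ s a = a) {x : H1 (coeff A L)}
    (hx : infl₁ A L x ∈ sha₁ S A) : x ∈ sha1Fin A L := by
  rw [Fermat.Agent.S55.Bridge.mem_sha₁_iff S h2] at hx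
  obtain ⟨-, hloc⟩ := hx
  induction x using H1_induction_on with | @h c =>
  rw [mem_sha1Fin_mk_iff]
  intro q
  have hq := hloc q
  rw [infl₁_mk, locRes_infl₁_mk_eq_zero_iff] at hq
  obtain ⟨a, ha⟩ := hq
  refine ⟨⟨a, fun s => hA s.1 s.2 a⟩, fun h => ?_⟩
  induction h using QuotientGroup.induction_on with | @H h =>
  rw [decHom_mk]
  apply Subtype.ext
  rw [ha h]
  rfl

theorem mem_sha1Fin_iff_infl₁_mem_sha₁ (h2 : (2 : K) ≠ 0) (L : Level S)
    (hA : ∀ s ∈ L.U, ∀ a : A, A.ρ s a = a) (x : H1 (coeff A L)) :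
    x ∈ sha1Fin A L ↔ infl₁ A L x ∈ sha₁ S A :=
  ⟨infl₁_mem_sha₁ A h2 L, mem_sha1Fin_of_infl₁_mem_sha₁ A h2 L hA⟩

/-! ### The image of inflation -/

/-- A cocycle of `G_ℚ` which is constant modulo `U_F` descends to `Gal(F/ℚ)`. -/
theorem exists_inflCoc_eq (L : Level S) (c : cocycles₁ A)
    (hc : Fermat.Agent.S55.Bridge.IsConstMod₁ L.U c) :
    ∃ cbar : cocycles₁ (coeff A L), inflCoc A L cbar = c := by
  have h1 := (mem_cocycles₁_iff (c : GQ → A)).1 c.2
  have hone : c (1 : GQ) = 0 := cocycles₁_map_one c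
  have hU : ∀ s ∈ L.U, c s = 0 := fun s hs => by
    have := hc 1 s hs
    rw [one_mul] at this
    rw [this, hone]
  have hinv : ∀ g : GQ, (c g : A) ∈ Representation.invariants (A.ρ.comp (L.U).subtype) := by
    intro g s
    have hs : g⁻¹ * s.1 * g ∈ L.U := Subgroup.Normal.conj_mem' inferInstance s.1 s.2 g
    have e1 : c (s.1 * g) = c g := by
      have := hc g (g⁻¹ * s.1 * g) hs
      rwa [show g * (g⁻¹ * s.1 * g) = s.1 * g by group] at this
    have e2 := h1 s.1 g
    rw [e1, hU s.1 s.2, add_zero] at e2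
    exact e2.symm
  have hwd : ∀ g g' : GQ, (QuotientGroup.leftRel L.U) g g' →
      (⟨c g, hinv g⟩ : coeff A L) = ⟨c g', hinv g'⟩ := by
    intro g g' h
    apply Subtype.ext
    have := hc g (g⁻¹ * g') (QuotientGroup.leftRel_apply.1 h)
    rw [mul_inv_cancel_left] at this
    exact this.symm
  refine ⟨⟨fun g => Quotient.liftOn' g (fun g => (⟨c g, hinv g⟩ : coeff A L)) hwd, ?_⟩, ?_⟩
  · rw [mem_cocycles₁_iff]
    intro g h
    induction g using QuotientGroup.induction_on with | @H g =>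
    induction h using QuotientGroup.induction_on with | @H h =>
    apply Subtype.ext
    exact h1 g h
  · apply Subtype.ext
    funext g
    rfl

theorem mem_range_infl₁_iff (L : Level S) (y : H1 A) :
    y ∈ LinearMap.range (infl₁ A L) ↔
      ∃ c : cocycles₁ A, Fermat.Agent.S55.Bridge.IsConstMod₁ L.U c ∧ (H1π A).hom c = y := by
  constructor
  · rintro ⟨x, rfl⟩
    induction x using H1_induction_on with | @h c =>
    refine ⟨inflCoc A L c, fun g s hs => ?_, (infl₁_mk A L c).symm⟩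
    have : (QuotientGroup.mk (g * s) : L.Gal) = QuotientGroup.mk g := by
      rw [QuotientGroup.eq]
      simpa using (L.U).inv_mem hs
    rw [inflCoc_apply, inflCoc_apply, this]
  · rintro ⟨c, hc, rfl⟩
    obtain ⟨cbar, hcbar⟩ := exists_inflCoc_eq A L c hc
    exact ⟨(H1π (coeff A L)).hom cbar, by rw [infl₁_mk, hcbar]⟩

theorem range_infl₁_mono {L L' : Level S} (h : L ≤ L') :
    LinearMap.range (infl₁ A L) ≤ LinearMap.range (infl₁ A L') := by
  intro y hy
  obtain ⟨c, hc, rfl⟩ := (mem_range_infl₁_iff A L _).1 hy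
  exact (mem_range_infl₁_iff A L' _).2 ⟨c, hc.mono (Level.U_anti h), rfl⟩

/-! ### Levels are directed -/

/-- The level attached to a finite Galois `F/ℚ` unramified outside `S`. -/
def levelOfGalois (F : IntermediateField ℚ Qbar) (hF : F.IsUnramifiedOutside S)
    (hgal : IsGalois ℚ F) : Level S where
  F := F
  unram := hF
  normalU := by
    have hQ : IsGalois ℚ Qbar := Fermat.Agent.S55.Bridge.isGalois_Qbar
    have h := (InfiniteGalois.normal_iff_isGalois F).2 (by
      convert hgal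
      exact Subsingleton.elim _ _)
    exact h

/-- The compositum of two levels. -/
def levelSup (L L' : Level S) : Level S where
  F := L.F ⊔ L'.F
  unram := L.unram.sup L'.unram
  normalU := by
    rw [IntermediateField.fixingSubgroup_sup]
    have h1 := L.normalU
    have h2 := L'.normalU
    infer_instance

theorem le_levelSup_left (L L' : Level S) : L ≤ levelSup L L' :=
  show L.F ≤ L.F ⊔ L'.F from le_sup_left

theorem le_levelSup_right (L L' : Level S) : L' ≤ levelSup L L' :=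
  show L'.F ≤ L.F ⊔ L'.F from le_sup_right

instance : IsDirected (Level S) (· ≤ ·) :=
  ⟨fun L L' => ⟨levelSup L L', le_levelSup_left L L', le_levelSup_right L L'⟩⟩

/-- The trivial level `ℚ`. -/
def levelBot : Level S where
  F := ⊥
  unram := IntermediateField.isUnramifiedOutside_bot S
  normalU := by
    rw [IntermediateField.fixingSubgroup_bot]
    infer_instance

instance : Nonempty (Level S) := ⟨levelBot⟩

/-- Every class of `continuousH1S` is inflated from some level above a given one. -/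
theorem exists_level_mem_range_infl₁ (L₀ : Level S) {y : H1 A} (hy : y ∈ continuousH1S S A) :
    ∃ L : Level S, L₀ ≤ L ∧ y ∈ LinearMap.range (infl₁ A L) := by
  obtain ⟨c, hc, rfl⟩ := (mem_continuousH1S_iff S A y).1 hy
  obtain ⟨F, hF, hgal, hle, hcF⟩ :=
    (Fermat.Agent.S55.Bridge.isLevelConstantS₁_iff_galois S _ L₀.F L₀.unram).1 hc
  exact ⟨levelOfGalois F hF hgal, hle,
    (mem_range_infl₁_iff A (levelOfGalois F hF hgal) _).2 ⟨c, hcF, rfl⟩⟩

/-! ### LIM4 -/

/-- `infl₁` as a map `Ш¹_F → sha₁`. -/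
def shaInfl (h2 : (2 : K) ≠ 0) (L : Level S) : sha1Fin A L →ₗ[K] sha₁ S A :=
  ((infl₁ A L).comp (sha1Fin A L).subtype).codRestrict (sha₁ S A)
    fun x => infl₁_mem_sha₁ A h2 L x.2

@[simp] theorem coe_shaInfl (h2 : (2 : K) ≠ 0) (L : Level S) (x : sha1Fin A L) :
    (shaInfl A h2 L x : H1 A) = infl₁ A L (x : H1 (coeff A L)) := rfl

theorem shaInfl_injective (h2 : (2 : K) ≠ 0) (L : Level S) :
    Function.Injective (shaInfl A h2 L) := by
  intro x y hxy
  apply Subtype.ext
  apply infl₁_injective A L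
  have := congrArg Subtype.val hxy
  simpa using this

/-- **LIM4.** If `sha₁ S A` is finite and `U_{F₀}` acts trivially on `A`, then for every
sufficiently large level `F` the inflation map is an isomorphism `Ш¹_F(A) ≃ sha₁ S A`. -/
theorem exists_level_forall_shaInfl_bijective (h2 : (2 : K) ≠ 0) [Finite (sha₁ S A)]
    (L₀ : Level S) (hA : ∀ s ∈ L₀.U, ∀ a : A, A.ρ s a = a) :
    ∃ L₁ : Level S, L₀ ≤ L₁ ∧ ∀ L : Level S, L₁ ≤ L →
      Function.Bijective (shaInfl A h2 L) := by
  classical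
  have hex : ∀ y : sha₁ S A, ∃ L : Level S, L₀ ≤ L ∧
      (y : H1 A) ∈ LinearMap.range (infl₁ A L) := fun y =>
    exists_level_mem_range_infl₁ A L₀
      ((Fermat.Agent.S55.Bridge.mem_sha₁_iff S h2 A _).1 y.2).1
  choose Ly hLy₀ hLy using hex
  obtain ⟨M, hM⟩ := Finite.exists_le Ly
  refine ⟨levelSup M L₀, le_levelSup_right M L₀, fun L hL => ⟨shaInfl_injective A h2 L, ?_⟩⟩
  intro y
  have hML : M ≤ L := le_trans (le_levelSup_left M L₀) hL
  have hL₀ : L₀ ≤ L := le_trans (le_levelSup_right M L₀) hL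
  obtain ⟨x, hx⟩ := range_infl₁_mono A (le_trans (hM y) hML) (hLy y)
  have hAL : ∀ s ∈ L.U, ∀ a : A, A.ρ s a = a := fun s hs => hA s (Level.U_anti hL₀ hs)
  have hxs : x ∈ sha1Fin A L := by
    apply mem_sha1Fin_of_infl₁_mem_sha₁ A h2 L hAL
    rw [hx]
    exact y.2
  exact ⟨⟨x, hxs⟩, Subtype.ext hx⟩

/-- **LIM4**, cardinality form. -/
theorem exists_level_forall_card_sha1Fin_eq (h2 : (2 : K) ≠ 0) [Finite (sha₁ S A)]
    (L₀ : Level S) (hA : ∀ s ∈ L₀.U, ∀ a : A, A.ρ s a = a) :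
    ∃ L₁ : Level S, L₀ ≤ L₁ ∧ ∀ L : Level S, L₁ ≤ L →
      Nat.card (sha1Fin A L) = Nat.card (sha₁ S A) := by
  obtain ⟨L₁, h₁, h⟩ := exists_level_forall_shaInfl_bijective A h2 L₀ hA
  exact ⟨L₁, h₁, fun L hL => Nat.card_eq_of_bijective _ (h L hL)⟩

end

end Fermat.Agent.S55.E1.H603
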