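/-
S55 / engine E1 / block LIM, B-part of LIM5 (helper603): the Prelude `continuousH2S S A` and
`sha₂ S A` as elementwise colimits of the finite-level groups `H²(Gal(F/ℚ), A^{U_F})`.

* `H2desc` : descend a linear map from 2-cocycles to `H2`;
* `infl₂ A L : H2 (coeff A L) →ₗ[K] continuousH2S S A`, `tr₂ A h : H2 (coeff A L) →ₗ[K] H2 (coeff A L')`;
* `infl₂_tr₂` (compat), `exists_infl₂_eq` (surj), `exists_tr₂_eq_zero` (sep)
  = the three fields of `E1.AddSys.IsColim` (helper474, `E1/LimAbs.lean`).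

Mathlib + Prelude + `Spec/Tower.lean` + `Bridge/Cochain.lean`.  No sorry.
-/
import Fermat.Agent.S55.E1.H603.FinLevelH1

set_option autoImplicit false

namespace Fermat.Agent.S55.E1.H603

open groupCohomology CategoryTheory ExtCitation Fermat.Agent.S55.Tow

noncomputable section

/-! ### Descending maps from cocycles to `H²` -/

section Desc

variable {k G : Type} [CommRing k] [Group G] (A : Rep.{0, 0, 0} k G)

theorem H2π_surjective : Function.Surjective (H2π A).hom :=
  (ModuleCat.epi_iff_surjective (H2π A)).1 inferInstance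

theorem ker_H2π_le {X : Type} [AddCommGroup X] [Module k X] (φ : cocycles₂ A →ₗ[k] X)
    (h : ∀ c : cocycles₂ A, (c : G × G → A) ∈ coboundaries₂ A → φ c = 0) :
    LinearMap.ker (H2π A).hom ≤ LinearMap.ker φ := fun c hc =>
  LinearMap.mem_ker.2 (h c ((H2π_eq_zero_iff c).1 (LinearMap.mem_ker.1 hc)))

/-- A linear map on 2-cocycles killing the coboundaries descends to `H²`. -/
def H2desc {X : Type} [AddCommGroup X] [Module k X] (φ : cocycles₂ A →ₗ[k] X)
    (h : ∀ c : cocycles₂ A, (c : G × G → A) ∈ coboundaries₂ A → φ c = 0) : H2 A →ₗ[k] X :=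
  ((LinearMap.ker (H2π A).hom).liftQ φ (ker_H2π_le A φ h)) ∘ₗ
    ((H2π A).hom.quotKerEquivOfSurjective (H2π_surjective A)).symm.toLinearMap

theorem H2desc_mk {X : Type} [AddCommGroup X] [Module k X] (φ : cocycles₂ A →ₗ[k] X)
    (h : ∀ c : cocycles₂ A, (c : G × G → A) ∈ coboundaries₂ A → φ c = 0) (c : cocycles₂ A) :
    H2desc A φ h ((H2π A).hom c) = φ c := by
  have : ((H2π A).hom.quotKerEquivOfSurjective (H2π_surjective A)).symm ((H2π A).hom c)
      = Submodule.Quotient.mk c := by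
    rw [LinearEquiv.symm_apply_eq]
    rfl
  simp only [H2desc, LinearMap.comp_apply, LinearEquiv.coe_coe, this, Submodule.liftQ_apply]

end Desc

variable {S : Finset Nat.Primes} {K : Type} [Field K] (A : Rep.{0, 0, 0} K GQ)

/-! ### Inflation to the Prelude `continuousH2S` -/

/-- inflation of 2-cocycles -/
def inflCoc₂ (L : Level S) : cocycles₂ (coeff A L) →ₗ[K] cocycles₂ A :=
  (mapCocycles₂ (QuotientGroup.mk' L.U) (liftHom A L)).hom

@[simp] theorem inflCoc₂_apply (L : Level S) (c : cocycles₂ (coeff A L)) (g h : GQ) :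
    inflCoc₂ A L c (g, h) = ((c (QuotientGroup.mk g, QuotientGroup.mk h) : coeff A L) : A) := rfl

theorem mk_mul_of_mem (L : Level S) (g s : GQ) (hs : s ∈ L.U) :
    (QuotientGroup.mk (g * s) : L.Gal) = QuotientGroup.mk g := by
  rw [QuotientGroup.eq]
  simpa using (L.U).inv_mem hs

theorem isConstMod₂_inflCoc₂ (L : Level S) (c : cocycles₂ (coeff A L)) :
    Fermat.Agent.S55.Bridge.IsConstMod₂ L.U (inflCoc₂ A L c) := by
  intro g g' s s' hs hs'
  rw [inflCoc₂_apply, inflCoc₂_apply, mk_mul_of_mem L g s hs, mk_mul_of_mem L g' s' hs']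

theorem inflCoc₂_mem_levelCocyclesS₂ (L : Level S) (c : cocycles₂ (coeff A L)) :
    (inflCoc₂ A L c : GQ × GQ → A) ∈ levelCocyclesS₂ S A :=
  ⟨(inflCoc₂ A L c).2, ⟨L.F, L.unram, isConstMod₂_inflCoc₂ A L c⟩⟩

/-- inflation of 2-cocycles, landing in the level-constant cocycles of the Prelude. -/
def inflLC₂ (L : Level S) : cocycles₂ (coeff A L) →ₗ[K] levelCocyclesS₂ S A :=
  ((cocycles₂ A).subtype ∘ₗ inflCoc₂ A L).codRestrict (levelCocyclesS₂ S A)
    (inflCoc₂_mem_levelCocyclesS₂ A L)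

@[simp] theorem coe_inflLC₂ (L : Level S) (c : cocycles₂ (coeff A L)) :
    ((inflLC₂ A L c : levelCocyclesS₂ S A) : GQ × GQ → A) = inflCoc₂ A L c := rfl

/-- inflation of 1-cochains -/
def inflCoch₁ (L : Level S) (x : L.Gal → coeff A L) : GQ → A :=
  fun g => ((x (QuotientGroup.mk g) : coeff A L) : A)

theorem isConstMod₁_inflCoch₁ (L : Level S) (x : L.Gal → coeff A L) :
    Fermat.Agent.S55.Bridge.IsConstMod₁ L.U (inflCoch₁ A L x) := by
  intro g s hs
  unfold inflCoch₁
  rw [mk_mul_of_mem L g s hs]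

theorem d₁₂_inflCoch₁ (L : Level S) (x : L.Gal → coeff A L) (g h : GQ) :
    (d₁₂ A).hom (inflCoch₁ A L x) (g, h) =
      (((d₁₂ (coeff A L)).hom x (QuotientGroup.mk g, QuotientGroup.mk h) : coeff A L) : A) := by
  rw [d₁₂_hom_apply, d₁₂_hom_apply]
  rfl

theorem inflLC₂_eq_zero_of_mem_coboundaries (L : Level S) (c : cocycles₂ (coeff A L))
    (hc : (c : L.Gal × L.Gal → coeff A L) ∈ coboundaries₂ (coeff A L)) :
    continuousH2Sπ S A (inflLC₂ A L c) = 0 := by
  rw [continuousH2Sπ_eq_zero_iff, mem_levelCoboundariesS₂_iff]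
  obtain ⟨x, hx⟩ := hc
  refine ⟨inflCoch₁ A L x, ⟨L.F, L.unram, isConstMod₁_inflCoch₁ A L x⟩, ?_⟩
  funext ⟨g, h⟩
  rw [d₁₂_inflCoch₁, coe_inflLC₂, inflCoc₂_apply]
  have := congrFun hx (QuotientGroup.mk g, QuotientGroup.mk h)
  rw [← this]

/-- inflation `H²(Gal(F/ℚ), A^{U_F}) → continuousH2S S A`. -/
def infl₂ (L : Level S) : H2 (coeff A L) →ₗ[K] continuousH2S S A :=
  H2desc (coeff A L) (continuousH2Sπ S A ∘ₗ inflLC₂ A L)
    (fun c hc => inflLC₂_eq_zero_of_mem_coboundaries A L c hc)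

theorem infl₂_mk (L : Level S) (c : cocycles₂ (coeff A L)) :
    infl₂ A L ((H2π (coeff A L)).hom c) = continuousH2Sπ S A (inflLC₂ A L c) :=
  H2desc_mk (coeff A L) _ _ c

/-! ### Transition maps between levels -/

/-- the inclusion `A^{U_F} ⊆ A^{U_{F'}}` for `F ≤ F'`, as a linear map. -/
def transLin {L L' : Level S} (h : L ≤ L') : (coeff A L) →ₗ[K] (coeff A L') where
  toFun a := ⟨(a : A), fun s => a.2 ⟨s.1, Level.U_anti h s.2⟩⟩
  map_add' _ _ := rfl
  map_smul' _ _ := rfl

@[simp] theorem coe_transLin {L L' : Level S} (h : L ≤ L') (a : coeff A L) :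
    ((transLin A h a : coeff A L') : A) = (a : A) := rfl

/-- the inclusion `A^{U_F} ⊆ A^{U_{F'}}` as a morphism along `Gal(F'/ℚ) → Gal(F/ℚ)`. -/
def transHom {L L' : Level S} (h : L ≤ L') :
    Rep.res (Level.proj h) (coeff A L) ⟶ coeff A L' :=
  Rep.ofHom ⟨transLin A h, fun g => by
    induction g using QuotientGroup.induction_on with | @H g =>
    rfl⟩

/-- inflation `H²(Gal(F/ℚ), A^{U_F}) → H²(Gal(F'/ℚ), A^{U_{F'}})` for `F ≤ F'`. -/
def tr₂ {L L' : Level S} (h : L ≤ L') : H2 (coeff A L) →ₗ[K] H2 (coeff A L') :=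
  (groupCohomology.map (Level.proj h) (transHom A h) 2).hom

/-- inflation of 2-cocycles between levels. -/
def trCoc₂ {L L' : Level S} (h : L ≤ L') : cocycles₂ (coeff A L) →ₗ[K] cocycles₂ (coeff A L') :=
  (mapCocycles₂ (Level.proj h) (transHom A h)).hom

theorem proj_mk {L L' : Level S} (h : L ≤ L') (g : GQ) :
    Level.proj h (QuotientGroup.mk g) = QuotientGroup.mk g := rfl

@[simp] theorem trCoc₂_apply {L L' : Level S} (h : L ≤ L') (c : cocycles₂ (coeff A L))
    (g g' : L'.Gal) :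
    trCoc₂ A h c (g, g') = transLin A h (c (Level.proj h g, Level.proj h g')) := rfl

theorem tr₂_mk {L L' : Level S} (h : L ≤ L') (c : cocycles₂ (coeff A L)) :
    tr₂ A h ((H2π (coeff A L)).hom c) = (H2π (coeff A L')).hom (trCoc₂ A h c) := by
  have hcomp := congrArg (fun φ => φ.hom c)
    (H2π_comp_map (A := coeff A L) (B := coeff A L') (Level.proj h) (transHom A h))
  simp only [ModuleCat.hom_comp, LinearMap.comp_apply] at hcomp
  exact hcomp

theorem inflCoc₂_trCoc₂ {L L' : Level S} (h : L ≤ L') (c : cocycles₂ (coeff A L)) :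
    inflCoc₂ A L' (trCoc₂ A h c) = inflCoc₂ A L c := by
  apply Subtype.ext
  funext ⟨g, g'⟩
  rfl

/-- **compat**: inflation to the Prelude group commutes with the transition maps. -/
theorem infl₂_tr₂ {L L' : Level S} (h : L ≤ L') (x : H2 (coeff A L)) :
    infl₂ A L' (tr₂ A h x) = infl₂ A L x := by
  induction x using H2_induction_on with | @h c =>
  rw [tr₂_mk, infl₂_mk, infl₂_mk]
  congr 1

theorem tr₂_tr₂ {L L' L'' : Level S} (h : L ≤ L') (h' : L' ≤ L'') (x : H2 (coeff A L)) :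
    tr₂ A h' (tr₂ A h x) = tr₂ A (h.trans h') x := by
  induction x using H2_induction_on with | @h c =>
  rw [tr₂_mk, tr₂_mk, tr₂_mk]
  congr 1
  apply Subtype.ext
  funext ⟨g, g'⟩
  induction g using QuotientGroup.induction_on with | @H g =>
  induction g' using QuotientGroup.induction_on with | @H g' =>
  rfl

/-! ### Descent of level-constant cochains -/

/-- the element `a`, viewed in `A^{U_F}` when `U_F` acts trivially. -/
def toCoeff (L : Level S) (hA : ∀ s ∈ L.U, ∀ a : A, A.ρ s a = a) (a : A) : coeff A L :=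
  ⟨a, fun s => hA s.1 s.2 a⟩

@[simp] theorem coe_toCoeff (L : Level S) (hA : ∀ s ∈ L.U, ∀ a : A, A.ρ s a = a) (a : A) :
    ((toCoeff A L hA a : coeff A L) : A) = a := rfl

theorem exists_inflCoch₁_eq (L : Level S) (hA : ∀ s ∈ L.U, ∀ a : A, A.ρ s a = a)
    (c : GQ → A) (hc : Fermat.Agent.S55.Bridge.IsConstMod₁ L.U c) :
    ∃ cbar : L.Gal → coeff A L, inflCoch₁ A L cbar = c := by
  refine ⟨fun g => Quotient.liftOn' g (fun g => toCoeff A L hA (c g)) ?_, ?_⟩
  · intro g g' h
    apply Subtype.ext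
    have := hc g (g⁻¹ * g') (QuotientGroup.leftRel_apply.1 h)
    rw [mul_inv_cancel_left] at this
    exact this.symm
  · funext g
    rfl

theorem exists_inflCoc₂_eq (L : Level S) (hA : ∀ s ∈ L.U, ∀ a : A, A.ρ s a = a)
    (f : cocycles₂ A) (hf : Fermat.Agent.S55.Bridge.IsConstMod₂ L.U f) :
    ∃ cbar : cocycles₂ (coeff A L), inflCoc₂ A L cbar = f := by
  have hwd : ∀ (g h g' h' : GQ), (QuotientGroup.leftRel L.U) g g' →
      (QuotientGroup.leftRel L.U) h h' →
      toCoeff A L hA (f (g, h)) = toCoeff A L hA (f (g', h')) := by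
    intro g h g' h' hg hh
    apply Subtype.ext
    have := hf g h (g⁻¹ * g') (h⁻¹ * h') (QuotientGroup.leftRel_apply.1 hg)
      (QuotientGroup.leftRel_apply.1 hh)
    rw [mul_inv_cancel_left, mul_inv_cancel_left] at this
    exact this.symm
  have h3 := (mem_cocycles₂_iff (f : GQ × GQ → A)).1 f.2
  refine ⟨⟨fun x => Quotient.liftOn₂' x.1 x.2 (fun g h => toCoeff A L hA (f (g, h))) hwd, ?_⟩, ?_⟩
  · rw [mem_cocycles₂_iff]
    intro g h j
    induction g using QuotientGroup.induction_on with | @H g =>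
    induction h using QuotientGroup.induction_on with | @H h =>
    induction j using QuotientGroup.induction_on with | @H j =>
    apply Subtype.ext
    exact h3 g h j
  · apply Subtype.ext
    funext ⟨g, h⟩
    rfl

/-! ### The colimit properties -/

/-- **surj**: every class of `continuousH2S S A` is inflated from a level above a given one
on which `A` is trivial. -/
theorem exists_infl₂_eq (L₀ : Level S) (hA : ∀ s ∈ L₀.U, ∀ a : A, A.ρ s a = a)
    (y : continuousH2S S A) :
    ∃ L : Level S, L₀ ≤ L ∧ ∃ x : H2 (coeff A L), infl₂ A L x = y := by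
  obtain ⟨F, hF, hgal, hle, f, hf, rfl⟩ :=
    Fermat.Agent.S55.Bridge.exists_rep_continuousH2S S A y L₀.F L₀.unram
  have hle' : L₀ ≤ levelOfGalois F hF hgal := hle
  have hAL : ∀ s ∈ (levelOfGalois F hF hgal).U, ∀ a : A, A.ρ s a = a :=
    fun s hs => hA s (Level.U_anti hle' hs)
  obtain ⟨cbar, hcbar⟩ := exists_inflCoc₂_eq A (levelOfGalois F hF hgal) hAL
    ⟨(f : GQ × GQ → A), f.2.1⟩ hf
  refine ⟨levelOfGalois F hF hgal, hle', (H2π _).hom cbar, ?_⟩
  rw [infl₂_mk]
  congr 1
  apply Subtype.ext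
  have := congrArg (fun z : cocycles₂ A => (z : GQ × GQ → A)) hcbar
  exact this

/-- **sep**: a class at level `F` dying in `continuousH2S S A` dies at a higher level. -/
theorem exists_tr₂_eq_zero (L : Level S) (hA : ∀ s ∈ L.U, ∀ a : A, A.ρ s a = a)
    (x : H2 (coeff A L)) (hx : infl₂ A L x = 0) :
    ∃ L' : Level S, ∃ h : L ≤ L', tr₂ A h x = 0 := by
  induction x using H2_induction_on with | @h c =>
  rw [infl₂_mk] at hx
  obtain ⟨F, hF, hgal, hle, y, hy, hd⟩ :=
    (Fermat.Agent.S55.Bridge.continuousH2Sπ_eq_zero_iff_galois S A _ L.F L.unram).1 hx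
  have hle' : L ≤ levelOfGalois F hF hgal := hle
  have hAL : ∀ s ∈ (levelOfGalois F hF hgal).U, ∀ a : A, A.ρ s a = a :=
    fun s hs => hA s (Level.U_anti hle' hs)
  obtain ⟨ybar, hybar⟩ := exists_inflCoch₁_eq A (levelOfGalois F hF hgal) hAL y hy
  refine ⟨levelOfGalois F hF hgal, hle', ?_⟩
  rw [tr₂_mk, H2π_eq_zero_iff]
  refine ⟨ybar, ?_⟩
  funext ⟨g, g'⟩
  induction g using QuotientGroup.induction_on with | @H g =>
  induction g' using QuotientGroup.induction_on with | @H g' =>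
  apply Subtype.ext
  have h1 := d₁₂_inflCoch₁ A (levelOfGalois F hF hgal) ybar g g'
  rw [hybar, hd] at h1
  rw [← h1]
  rfl

end

end Fermat.Agent.S55.E1.H603
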