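/-
S55 bridge (helper603): FINITENESS OF RAMIFICATION in the Prelude's valuation-subring language.

`exists_isUnramifiedOutside F : ∃ S', F.IsUnramifiedOutside S'` for every finite `F/ℚ` inside `ℚ̄`,
and `exists_isUnramifiedOutside_ge S F : ∃ S' ⊇ S, F.IsUnramifiedOutside S'`.
Hence every finite Galois `F'/ℚ` is a `Tow.Level S'` for some `S' ⊇ S`
(`exists_level_of_nLevel`).

Proof: `F = ℚ(α)`; for almost all `q` the differences of the conjugates of `α` are units at
every place above `q`, and an element of inertia moves `α` to a congruent conjugate.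
Mathlib + Prelude + Bridge (on main).  No sorry.
-/
import Fermat.Agent.S55.E1.H603.FinLevelH1

set_option autoImplicit false

namespace Fermat.Agent.S55.E1.H603

open Fermat.Agent.S55.Tow

section Units

variable (A : ValuationSubring Qbar)

theorem intCast_mem' (m : ℤ) : ((m : ℤ) : Qbar) ∈ A := intCast_mem A m

/-- An integer prime to `q` is a unit at every place above `q`. -/
theorem inv_intCast_mem {q : ℕ} (hq : q.Prime) (hA : A.LiesOverPrime q) (m : ℤ)
    (hm : ¬ ((q : ℤ) ∣ m)) : ((m : Qbar))⁻¹ ∈ A := by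
  have hcop : IsCoprime m (q : ℤ) := by
    have hqz : Prime (q : ℤ) := Nat.prime_iff_prime_int.1 hq
    exact ((hqz.coprime_iff_not_dvd).2 hm).symm
  obtain ⟨a, b, hab⟩ := hcop
  -- `m` is not a nonunit
  have hv : ¬ A.valuation (m : Qbar) < 1 := by
    intro hlt
    have hmn : (m : Qbar) ∈ A.nonunits := (A.mem_nonunits_iff).2 hlt
    have hqn : ((q : ℕ) : Qbar) ∈ A.nonunits := hA
    have hmul : ∀ (c x : Qbar), c ∈ A → x ∈ A.nonunits → c * x ∈ A.nonunits := by
      intro c x hc hx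
      rw [A.mem_nonunits_iff] at hx ⊢
      rw [map_mul]
      have hc1 : A.valuation c ≤ 1 := (A.valuation_le_one_iff c).2 hc
      calc A.valuation c * A.valuation x ≤ 1 * A.valuation x := by gcongr
        _ = A.valuation x := one_mul _
        _ < 1 := hx
    have h1 : (a : Qbar) * m ∈ A.nonunits := hmul _ _ (intCast_mem A a) hmn
    have h2 : (b : Qbar) * (q : ℕ) ∈ A.nonunits := hmul _ _ (intCast_mem A b) hqn
    have h3 : (a : Qbar) * m + (b : Qbar) * (q : ℕ) ∈ A.nonunits := by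
      rw [A.mem_nonunits_iff] at h1 h2 ⊢
      exact lt_of_le_of_lt (A.valuation.map_add _ _) (max_lt h1 h2)
    have h4 : (a : Qbar) * m + (b : Qbar) * (q : ℕ) = 1 := by
      have := congrArg (fun z : ℤ => (z : Qbar)) hab
      simpa using this
    rw [h4, A.mem_nonunits_iff, map_one] at h3
    exact lt_irrefl _ h3
  have hm0 : (m : Qbar) ≠ 0 := by
    intro h0
    rw [h0, map_zero] at hv
    exact hv zero_lt_one
  rw [← A.valuation_le_one_iff, map_inv₀]
  have hge : 1 ≤ A.valuation (m : Qbar) := not_lt.1 hv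
  exact inv_le_one_of_one_le₀ hge

/-- An element integral over `ℤ` lies in every valuation subring. -/
theorem mem_of_isIntegral_int {x : Qbar} (hx : IsIntegral ℤ x) : x ∈ A := by
  have h1 : IsIntegral A x := hx.tower_top
  obtain ⟨y, rfl⟩ := IsIntegrallyClosed.isIntegral_iff.1 h1
  exact y.2

end Units

/-- Every element of `ℚ̄` is integral at all places above all but finitely many primes. -/
theorem exists_int_forall_mem (β : Qbar) :
    ∃ y : ℤ, y ≠ 0 ∧ ∀ q : ℕ, q.Prime → ¬ ((q : ℤ) ∣ y) →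
      ∀ A : ValuationSubring Qbar, A.LiesOverPrime q → β ∈ A := by
  have halgQ : IsAlgebraic ℚ β := (Fermat.Agent.S55.Bridge.isAlgebraic_Qbar).isAlgebraic β
  have halg : IsAlgebraic ℤ β := (IsFractionRing.isAlgebraic_iff ℤ ℚ Qbar).2 halgQ
  obtain ⟨y, hy0, hy⟩ := halg.exists_integral_multiple
  refine ⟨y, hy0, fun q hq hqy A hA => ?_⟩
  have h1 : y • β ∈ A := mem_of_isIntegral_int A hy
  have h2 : ((y : Qbar))⁻¹ ∈ A := inv_intCast_mem A hq hA y hqy
  have hy0' : (y : Qbar) ≠ 0 := by exact_mod_cast hy0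
  have : β = ((y : Qbar))⁻¹ * (y • β) := by
    rw [zsmul_eq_mul, ← mul_assoc, inv_mul_cancel₀ hy0', one_mul]
  rw [this]
  exact A.mul_mem _ _ h2 h1

/-- Every nonzero element of `ℚ̄` is a unit at all places above all but finitely many primes. -/
theorem exists_int_forall_inv_mem (β : Qbar) :
    ∃ y : ℤ, y ≠ 0 ∧ ∀ q : ℕ, q.Prime → ¬ ((q : ℤ) ∣ y) →
      ∀ A : ValuationSubring Qbar, A.LiesOverPrime q → β⁻¹ ∈ A :=
  exists_int_forall_mem β⁻¹

/-- A finite set of elements: common bad integer. -/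
theorem exists_int_forall_mem_finset (T : Finset Qbar) :
    ∃ y : ℤ, y ≠ 0 ∧ ∀ q : ℕ, q.Prime → ¬ ((q : ℤ) ∣ y) →
      ∀ A : ValuationSubring Qbar, A.LiesOverPrime q → ∀ β ∈ T, β ∈ A ∧ β⁻¹ ∈ A := by
  classical
  induction T using Finset.induction_on with
  | empty => exact ⟨1, one_ne_zero, fun _ _ _ _ _ β hβ => absurd hβ (Finset.notMem_empty β)⟩
  | insert b T _ ih =>
    obtain ⟨y, hy0, hy⟩ := ih
    obtain ⟨y₁, hy₁0, hy₁⟩ := exists_int_forall_mem b
    obtain ⟨y₂, hy₂0, hy₂⟩ := exists_int_forall_inv_mem b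
    refine ⟨y * y₁ * y₂, mul_ne_zero (mul_ne_zero hy0 hy₁0) hy₂0, fun q hq hqy A hA β hβ => ?_⟩
    have hq1 : ¬ ((q : ℤ) ∣ y) := fun h => hqy (Dvd.dvd.mul_right (Dvd.dvd.mul_right h _) _)
    have hq2 : ¬ ((q : ℤ) ∣ y₁) := fun h => hqy (Dvd.dvd.mul_right (Dvd.dvd.mul_left h _) _)
    have hq3 : ¬ ((q : ℤ) ∣ y₂) := fun h => hqy (Dvd.dvd.mul_left h _)
    rcases Finset.mem_insert.1 hβ with rfl | hβT
    · exact ⟨hy₁ q hq hq2 A hA, hy₂ q hq hq3 A hA⟩
    · exact hy q hq hq1 A hA β hβT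

/-- **Finiteness of ramification.** -/
theorem exists_isUnramifiedOutside (F : IntermediateField ℚ Qbar) (hF : FiniteDimensional ℚ F) :
    ∃ S' : Finset Nat.Primes, F.IsUnramifiedOutside S' := by
  classical
  obtain ⟨α, hα⟩ := Field.exists_primitive_element ℚ F
  -- the conjugates of `α`
  let f := minpoly ℚ (α : Qbar)
  have hint : IsIntegral ℚ (α : Qbar) :=
    (Fermat.Agent.S55.Bridge.isAlgebraic_Qbar).isAlgebraic (α : Qbar) |>.isIntegral
  have hf0 : f ≠ 0 := minpoly.ne_zero hint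
  let R : Finset Qbar := (f.rootSet Qbar).toFinset
  let D : Finset Qbar := insert (α : Qbar) ((R ×ˢ R).image fun x => x.1 - x.2)
  obtain ⟨y, hy0, hy⟩ := exists_int_forall_mem_finset D
  -- the bad primes
  let Sn : Finset ℕ := y.natAbs.primeFactors
  let S' : Finset Nat.Primes := Sn.attach.image fun q => ⟨q.1, Nat.prime_of_mem_primeFactors q.2⟩
  refine ⟨S', hF, fun q hq A hA σ hσ => ?_⟩
  have hqy : ¬ (((q : ℕ) : ℤ) ∣ y) := by
    intro hdvd
    apply hq
    have h1 : (q : ℕ) ∣ y.natAbs := Int.natCast_dvd.1 hdvd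
    have h2 : (q : ℕ) ∈ Sn :=
      Nat.mem_primeFactors.2 ⟨q.2, h1, Int.natAbs_ne_zero.2 hy0⟩
    exact Finset.mem_image.2 ⟨⟨(q : ℕ), h2⟩, Finset.mem_attach _ _, Subtype.ext rfl⟩
  have hD := hy q q.2 hqy A hA
  have hαA : (α : Qbar) ∈ A := (hD _ (Finset.mem_insert_self _ _)).1
  rw [Fermat.Agent.S55.Bridge.mem_inertiaSubgroupIn_iff] at hσ
  have hnon : σ (α : Qbar) - α ∈ A.nonunits := hσ.2 _ hαA
  -- `σ α` is a conjugate of `α`
  have hαR : (α : Qbar) ∈ R := by
    rw [Set.mem_toFinset, Polynomial.mem_rootSet]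
    exact ⟨hf0, minpoly.aeval ℚ _⟩
  have hσR : σ (α : Qbar) ∈ R := by
    rw [Set.mem_toFinset, Polynomial.mem_rootSet]
    exact ⟨hf0, minpoly.aeval_algHom ℚ (σ : Qbar →ₐ[ℚ] Qbar) _⟩
  have hfix : σ (α : Qbar) = α := by
    by_contra hne
    have hd : σ (α : Qbar) - α ∈ D :=
      Finset.mem_insert_of_mem (Finset.mem_image.2
        ⟨(σ (α : Qbar), (α : Qbar)), Finset.mem_product.2 ⟨hσR, hαR⟩, rfl⟩)
    have hinv := (hD _ hd).2
    have hne0 : σ (α : Qbar) - α ≠ 0 := sub_ne_zero.2 hne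
    rw [A.mem_nonunits_iff] at hnon
    rw [← A.valuation_le_one_iff, map_inv₀] at hinv
    have hpos : 0 < A.valuation (σ (α : Qbar) - α) :=
      lt_of_le_of_ne zero_le (Ne.symm ((map_ne_zero _).2 hne0))
    have h1 : 1 ≤ A.valuation (σ (α : Qbar) - α) := by
      by_contra hlt
      rw [not_le] at hlt
      have : 1 < (A.valuation (σ (α : Qbar) - α))⁻¹ := (one_lt_inv₀ hpos).2 hlt
      exact absurd hinv (not_le.2 this)
    exact absurd hnon (not_lt.2 h1)
  -- hence `σ` fixes `F = ℚ(α)`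
  rw [IntermediateField.mem_fixingSubgroup_iff]
  intro x hx
  have hx' : (⟨x, hx⟩ : F) ∈ IntermediateField.adjoin ℚ {α} := by rw [hα]; trivial
  have hle : IntermediateField.adjoin ℚ {(α : Qbar)}
      ≤ IntermediateField.fixedField (Subgroup.zpowers σ) := by
    rw [IntermediateField.adjoin_le_iff]
    rintro z hz
    rw [Set.mem_singleton_iff] at hz
    subst hz
    rintro ⟨τ, hτ⟩
    obtain ⟨n, rfl⟩ := Subgroup.mem_zpowers_iff.1 hτ
    show (σ ^ n) (α : Qbar) = α
    have hstab : σ ∈ MulAction.stabilizer (Qbar ≃ₐ[ℚ] Qbar) (α : Qbar) := hfix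
    exact (Subgroup.zpow_mem _ hstab n : _)
  have hxα : x ∈ IntermediateField.adjoin ℚ {(α : Qbar)} := by
    have h1 : IntermediateField.lift (IntermediateField.adjoin ℚ {α})
        = IntermediateField.adjoin ℚ {(α : Qbar)} := by
      rw [IntermediateField.lift_adjoin, Set.image_singleton]
    rw [← h1]
    exact (IntermediateField.mem_lift (⟨x, hx⟩ : F)).2 hx'
  exact hle hxα ⟨σ, Subgroup.mem_zpowers _⟩

/-- Finiteness of ramification, above a given set. -/
theorem exists_isUnramifiedOutside_ge (S : Finset Nat.Primes) (F : IntermediateField ℚ Qbar)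
    (hF : FiniteDimensional ℚ F) :
    ∃ S' : Finset Nat.Primes, S ⊆ S' ∧ F.IsUnramifiedOutside S' := by
  classical
  obtain ⟨S₁, hS₁⟩ := exists_isUnramifiedOutside F hF
  exact ⟨S ∪ S₁, Finset.subset_union_left, hS₁.mono Finset.subset_union_right⟩

end Fermat.Agent.S55.E1.H603
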