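/-
S55 / engine E1 / block LIM, B-part of LIM5 (helper603): local vanishing at finite level.

For a level `F` (`L : Tow.Level S`), a class `x ∈ H²(Gal(F/ℚ), A)` and `q`:
the localisation at `q` of the inflation of `x` vanishes in the Prelude group
`continuousH2 (locQ q) _` iff the inflation of `x` to `Gal(F'_q/ℚ_q) = G_{ℚ_q} ⧸ V_q(F')`
vanishes for some finite normal `F' ⊇ F` (NO ramification condition on `F'`).

* `NLevel` : finite normal subfields of `ℚ̄`;  `NLevel.V`, `NLevel.Dec`, `decToGal`, `locInfl₂`;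
* `locRes₂S_infl₂_eq_zero_iff`, `infl₂_mem_sha₂_iff`.
-/
import Fermat.Agent.S55.E1.H603.FinLevelH2
import Fermat.Agent.S55.E1.H603.FiniteRamification

set_option autoImplicit false

namespace Fermat.Agent.S55.E1.H603

open groupCohomology CategoryTheory ExtCitation Fermat.Agent.S55.Tow

noncomputable section

/-- A finite normal subextension of `ℚ̄/ℚ` (normality recorded on the fixing subgroup). -/
structure NLevel where
  /-- the field -/
  F : IntermediateField ℚ Qbar
  fin : FiniteDimensional ℚ F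
  normalU : (F.fixingSubgroup).Normal

/-- Every finite subextension lies in a finite normal one. -/
theorem exists_nLevel_ge (F : IntermediateField ℚ Qbar) (hF : FiniteDimensional ℚ F) :
    ∃ N : NLevel, F ≤ N.F := by
  have hQ : IsGalois ℚ Qbar := Fermat.Agent.S55.Bridge.isGalois_Qbar
  have hnorm : Normal ℚ (IntermediateField.normalClosure ℚ F Qbar) := normalClosure.normal ℚ F Qbar
  have hfin : FiniteDimensional ℚ (IntermediateField.normalClosure ℚ F Qbar) :=
    normalClosure.is_finiteDimensional ℚ F Qbar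
  have hgal : IsGalois ℚ (IntermediateField.normalClosure ℚ F Qbar) := ⟨⟩
  refine ⟨⟨IntermediateField.normalClosure ℚ F Qbar, hfin, ?_⟩, F.le_normalClosure⟩
  exact (InfiniteGalois.normal_iff_isGalois _).2 hgal

variable {S : Finset Nat.Primes}

/-- A level is in particular a finite normal field. -/
def nLevelOf (L : Level S) : NLevel := ⟨L.F, L.unram.1, L.normalU⟩

/-- `V_q(F') = Gal(ℚ̄_q / F'_q)`, the preimage of `G_{F'}` in the local Galois group. -/
def NLevel.V (N : NLevel) (q : Nat.Primes) : Subgroup (GQp q) := N.F.fixingSubgroup.comap (locQ q)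

instance NLevel.normalV (N : NLevel) (q : Nat.Primes) : (N.V q).Normal := by
  have := N.normalU
  unfold NLevel.V
  infer_instance

/-- `Gal(F'_q/ℚ_q)` as a quotient of the local Galois group. -/
abbrev NLevel.Dec (N : NLevel) (q : Nat.Primes) : Type := GQp q ⧸ N.V q

theorem nLevelOf_V (L : Level S) (q : Nat.Primes) : (nLevelOf L).V q = L.V q := rfl

/-- `Gal(F'_q/ℚ_q) → Gal(F/ℚ)` for `F ≤ F'`. -/
def decToGal (L : Level S) (N : NLevel) (h : L.F ≤ N.F) (q : Nat.Primes) : N.Dec q →* L.Gal :=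
  QuotientGroup.map (N.V q) L.U (locQ q)
    (fun _ hs => IntermediateField.fixingSubgroup_antitone h hs)

@[simp] theorem decToGal_mk (L : Level S) (N : NLevel) (h : L.F ≤ N.F) (q : Nat.Primes)
    (g : GQp q) : decToGal L N h q (QuotientGroup.mk g) = QuotientGroup.mk (locQ q g) := rfl

/-- Every finite normal field is a level for a suitable finite set of primes containing `S`. -/
theorem exists_level_of_nLevel (S : Finset Nat.Primes) (N : NLevel) :
    ∃ S' : Finset Nat.Primes, S ⊆ S' ∧ ∃ L' : Level S', L'.F = N.F := by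
  obtain ⟨S', hS, hur⟩ := exists_isUnramifiedOutside_ge S N.F N.fin
  exact ⟨S', hS, ⟨N.F, hur, N.normalU⟩, rfl⟩

variable {K : Type} [Field K] (A : Rep.{0, 0, 0} K GQ)

/-- inflation-restriction `H²(Gal(F/ℚ), A^{U_F}) → H²(Gal(F'_q/ℚ_q), A^{U_F})`. -/
def locInfl₂ (L : Level S) (N : NLevel) (h : L.F ≤ N.F) (q : Nat.Primes) :
    H2 (coeff A L) →ₗ[K] H2 (Rep.res (decToGal L N h q) (coeff A L)) :=
  (groupCohomology.map (decToGal L N h q) (𝟙 (Rep.res (decToGal L N h q) (coeff A L))) 2).hom

/-- the same on cocycles -/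
def locInflCoc₂ (L : Level S) (N : NLevel) (h : L.F ≤ N.F) (q : Nat.Primes) :
    cocycles₂ (coeff A L) →ₗ[K] cocycles₂ (Rep.res (decToGal L N h q) (coeff A L)) :=
  (mapCocycles₂ (decToGal L N h q) (𝟙 (Rep.res (decToGal L N h q) (coeff A L)))).hom

@[simp] theorem locInflCoc₂_apply (L : Level S) (N : NLevel) (h : L.F ≤ N.F) (q : Nat.Primes)
    (c : cocycles₂ (coeff A L)) (g g' : N.Dec q) :
    locInflCoc₂ A L N h q c (g, g') = c (decToGal L N h q g, decToGal L N h q g') := rfl

theorem locInfl₂_mk (L : Level S) (N : NLevel) (h : L.F ≤ N.F) (q : Nat.Primes)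
    (c : cocycles₂ (coeff A L)) :
    locInfl₂ A L N h q ((H2π (coeff A L)).hom c) =
      (H2π (Rep.res (decToGal L N h q) (coeff A L))).hom (locInflCoc₂ A L N h q c) := by
  have hcomp := congrArg (fun φ => φ.hom c)
    (H2π_comp_map (A := coeff A L) (B := Rep.res (decToGal L N h q) (coeff A L))
      (decToGal L N h q) (𝟙 (Rep.res (decToGal L N h q) (coeff A L))))
  simp only [ModuleCat.hom_comp, LinearMap.comp_apply] at hcomp
  exact hcomp

theorem mk_mul_of_mem_V (N : NLevel) (q : Nat.Primes) (g s : GQp q) (hs : s ∈ N.V q) :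
    (QuotientGroup.mk (g * s) : N.Dec q) = QuotientGroup.mk g := by
  rw [QuotientGroup.eq]
  simpa using (N.V q).inv_mem hs

/-- **Local vanishing at finite level.** -/
theorem locRes₂S_infl₂_eq_zero_iff (L : Level S) (hA : ∀ s ∈ L.U, ∀ a : A, A.ρ s a = a)
    (q : Nat.Primes) (x : H2 (coeff A L)) :
    locRes₂S S A (locQ q) (infl₂ A L x) = 0 ↔
      ∃ N : NLevel, ∃ h : L.F ≤ N.F, locInfl₂ A L N h q x = 0 := by
  induction x using H2_induction_on with | @h c =>
  rw [infl₂_mk, Fermat.Agent.S55.Bridge.locRes₂S_mk_eq_zero_iff]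
  constructor
  · rintro ⟨y, ⟨F₁, hF₁, hy⟩, hd⟩
    have hfin : FiniteDimensional ℚ ↥(F₁ ⊔ L.F) := by
      have := L.unram.1
      exact IntermediateField.finiteDimensional_sup F₁ L.F
    obtain ⟨N, hN⟩ := exists_nLevel_ge (F₁ ⊔ L.F) hfin
    have hle : L.F ≤ N.F := le_trans le_sup_right hN
    have hle₁ : F₁ ≤ N.F := le_trans le_sup_left hN
    refine ⟨N, hle, ?_⟩
    rw [locInfl₂_mk, H2π_eq_zero_iff]
    have hwd : ∀ g g' : GQp q, (QuotientGroup.leftRel (N.V q)) g g' →
        toCoeff A L hA (y g) = toCoeff A L hA (y g') := by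
      intro g g' hgg
      apply Subtype.ext
      have hs : g⁻¹ * g' ∈ N.V q := QuotientGroup.leftRel_apply.1 hgg
      have := hy g (g⁻¹ * g') (IntermediateField.fixingSubgroup_antitone hle₁ hs)
      rw [mul_inv_cancel_left] at this
      exact this.symm
    refine ⟨fun g => Quotient.liftOn' g (fun g => toCoeff A L hA (y g)) hwd, ?_⟩
    funext ⟨g, g'⟩
    induction g using QuotientGroup.induction_on with | @H g =>
    induction g' using QuotientGroup.induction_on with | @H g' =>
    apply Subtype.ext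
    rw [d₁₂_hom_apply]
    exact hd g g'
  · rintro ⟨N, hle, hx⟩
    rw [locInfl₂_mk, H2π_eq_zero_iff] at hx
    obtain ⟨ybar, hybar⟩ := hx
    refine ⟨fun g => ((ybar (QuotientGroup.mk g) : coeff A L) : A), ⟨N.F, N.fin, ?_⟩, ?_⟩
    · intro g s hs
      have hs' : s ∈ N.V q := hs
      show ((ybar (QuotientGroup.mk (g * s)) : coeff A L) : A) = _
      rw [mk_mul_of_mem_V N q g s hs']
    · intro g g'
      have := congrFun hybar (QuotientGroup.mk g, QuotientGroup.mk g')
      rw [d₁₂_hom_apply] at this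
      have h2 := congrArg (fun z : coeff A L => (z : A)) this
      exact h2

/-- **Finite-level description of `sha₂`.** -/
theorem infl₂_mem_sha₂_iff (h2 : (2 : K) ≠ 0) (L : Level S)
    (hA : ∀ s ∈ L.U, ∀ a : A, A.ρ s a = a) (x : H2 (coeff A L)) :
    infl₂ A L x ∈ sha₂ S A ↔
      ∀ q : S, ∃ N : NLevel, ∃ h : L.F ≤ N.F, locInfl₂ A L N h q.1 x = 0 := by
  rw [Fermat.Agent.S55.Bridge.mem_sha₂_iff S h2]
  exact forall_congr' fun q => locRes₂S_infl₂_eq_zero_iff A L hA q.1 x

end

end Fermat.Agent.S55.E1.H603
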