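/-
S55 bridge (helper603): change of coefficient ring `Rep k G → Rep ℤ G`.

The Prelude works with `Rep (ZMod p) G_ℚ`, engine E1 with `Rep ℤ G`.  For `A : Rep k G`:
* `toInt A : Rep ℤ G` (same underlying additive group, same action);
* `H1IntEquiv A : H1 (toInt A) ≃+ H1 A`, `H2IntEquiv A : H2 (toInt A) ≃+ H2 A`
  (identity on cocycles: `H1IntEquiv_mk`, `H2IntEquiv_mk`);
* `toIntHom f φ : Rep.res f (toInt A) ⟶ toInt B` for `φ : Rep.res f A ⟶ B`, and naturality
  `H1IntEquiv_map`, `H2IntEquiv_map` with respect to `groupCohomology.map f φ n`.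
Mathlib only.  No sorry.
-/
import Mathlib

set_option autoImplicit false

namespace Fermat.Agent.S55.E1.H603

open groupCohomology CategoryTheory

noncomputable section

variable {k G : Type} [CommRing k] [Group G] (A : Rep.{0, 0, 0} k G)

/-- The underlying `ℤ`-linear representation. -/
def intRepr : Representation ℤ G A.V where
  toFun g := (A.ρ g).toAddMonoidHom.toIntLinearMap
  map_one' := by
    refine LinearMap.ext fun x => ?_
    simp
  map_mul' g h := by
    refine LinearMap.ext fun x => ?_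
    simp

/-- `A` as a representation over `ℤ`. -/
def toInt : Rep.{0, 0, 0} ℤ G := Rep.of (intRepr A)

@[simp] theorem toInt_ρ_apply (g : G) (a : A.V) : (toInt A).ρ g a = A.ρ g a := rfl

/-! ### Descending additive maps from cocycles -/

theorem H1π_surjective' : Function.Surjective (H1π A).hom :=
  (ModuleCat.epi_iff_surjective (H1π A)).1 inferInstance

theorem H2π_surjective' : Function.Surjective (H2π A).hom :=
  (ModuleCat.epi_iff_surjective (H2π A)).1 inferInstance

/-- `H1π` as an additive map. -/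
def H1πAdd : cocycles₁ A →+ H1 A := (H1π A).hom.toAddMonoidHom

/-- `H2π` as an additive map. -/
def H2πAdd : cocycles₂ A →+ H2 A := (H2π A).hom.toAddMonoidHom

@[simp] theorem H1πAdd_apply (c : cocycles₁ A) : H1πAdd A c = (H1π A).hom c := rfl
@[simp] theorem H2πAdd_apply (c : cocycles₂ A) : H2πAdd A c = (H2π A).hom c := rfl

/-- An additive map on 1-cocycles killing the coboundaries descends to `H¹`. -/
def H1descAdd {X : Type} [AddCommGroup X] (φ : cocycles₁ A →+ X)
    (h : ∀ c : cocycles₁ A, (c : G → A) ∈ coboundaries₁ A → φ c = 0) : H1 A →+ X :=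
  (QuotientAddGroup.lift (H1πAdd A).ker φ (fun c hc =>
      h c ((H1π_eq_zero_iff c).1 ((AddMonoidHom.mem_ker).1 hc)))).comp
    (QuotientAddGroup.quotientKerEquivOfSurjective (H1πAdd A)
      (H1π_surjective' A)).symm.toAddMonoidHom

theorem H1descAdd_mk {X : Type} [AddCommGroup X] (φ : cocycles₁ A →+ X)
    (h : ∀ c : cocycles₁ A, (c : G → A) ∈ coboundaries₁ A → φ c = 0) (c : cocycles₁ A) :
    H1descAdd A φ h ((H1π A).hom c) = φ c := by
  have : (QuotientAddGroup.quotientKerEquivOfSurjective (H1πAdd A)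
      (H1π_surjective' A)).symm ((H1π A).hom c) = QuotientAddGroup.mk c := by
    rw [AddEquiv.symm_apply_eq]
    rfl
  simp only [H1descAdd, AddMonoidHom.comp_apply, AddEquiv.coe_toAddMonoidHom, this]
  rfl

/-- An additive map on 2-cocycles killing the coboundaries descends to `H²`. -/
def H2descAdd {X : Type} [AddCommGroup X] (φ : cocycles₂ A →+ X)
    (h : ∀ c : cocycles₂ A, (c : G × G → A) ∈ coboundaries₂ A → φ c = 0) : H2 A →+ X :=
  (QuotientAddGroup.lift (H2πAdd A).ker φ (fun c hc =>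
      h c ((H2π_eq_zero_iff c).1 ((AddMonoidHom.mem_ker).1 hc)))).comp
    (QuotientAddGroup.quotientKerEquivOfSurjective (H2πAdd A)
      (H2π_surjective' A)).symm.toAddMonoidHom

theorem H2descAdd_mk {X : Type} [AddCommGroup X] (φ : cocycles₂ A →+ X)
    (h : ∀ c : cocycles₂ A, (c : G × G → A) ∈ coboundaries₂ A → φ c = 0) (c : cocycles₂ A) :
    H2descAdd A φ h ((H2π A).hom c) = φ c := by
  have : (QuotientAddGroup.quotientKerEquivOfSurjective (H2πAdd A)
      (H2π_surjective' A)).symm ((H2π A).hom c) = QuotientAddGroup.mk c := by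
    rw [AddEquiv.symm_apply_eq]
    rfl
  simp only [H2descAdd, AddMonoidHom.comp_apply, AddEquiv.coe_toAddMonoidHom, this]
  rfl

/-! ### Cocycles and coboundaries do not depend on the coefficient ring -/

theorem mem_cocycles₁_toInt_iff (f : G → A.V) : f ∈ cocycles₁ (toInt A) ↔ f ∈ cocycles₁ A :=
  (mem_cocycles₁_iff (A := toInt A) f).trans (mem_cocycles₁_iff (A := A) f).symm

theorem mem_cocycles₂_toInt_iff (f : G × G → A.V) :
    f ∈ cocycles₂ (toInt A) ↔ f ∈ cocycles₂ A :=
  (mem_cocycles₂_iff (A := toInt A) f).trans (mem_cocycles₂_iff (A := A) f).symm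

theorem mem_coboundaries₁_toInt_iff (f : G → A.V) :
    f ∈ coboundaries₁ (toInt A) ↔ f ∈ coboundaries₁ A := by
  constructor
  · rintro ⟨a, ha⟩
    exact ⟨a, ha⟩
  · rintro ⟨a, ha⟩
    exact ⟨a, ha⟩

theorem mem_coboundaries₂_toInt_iff (f : G × G → A.V) :
    f ∈ coboundaries₂ (toInt A) ↔ f ∈ coboundaries₂ A := by
  constructor
  · rintro ⟨a, ha⟩
    exact ⟨a, ha⟩
  · rintro ⟨a, ha⟩
    exact ⟨a, ha⟩

/-- 1-cocycles of `A` as 1-cocycles of `toInt A`. -/
def cocToInt₁ : cocycles₁ A →+ cocycles₁ (toInt A) where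
  toFun c := ⟨(c : G → A.V), (mem_cocycles₁_toInt_iff A _).2 c.2⟩
  map_zero' := rfl
  map_add' _ _ := rfl

/-- 1-cocycles of `toInt A` as 1-cocycles of `A`. -/
def cocOfInt₁ : cocycles₁ (toInt A) →+ cocycles₁ A where
  toFun c := ⟨(c : G → A.V), (mem_cocycles₁_toInt_iff A _).1 c.2⟩
  map_zero' := rfl
  map_add' _ _ := rfl

/-- 2-cocycles of `A` as 2-cocycles of `toInt A`. -/
def cocToInt₂ : cocycles₂ A →+ cocycles₂ (toInt A) where
  toFun c := ⟨(c : G × G → A.V), (mem_cocycles₂_toInt_iff A _).2 c.2⟩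
  map_zero' := rfl
  map_add' _ _ := rfl

/-- 2-cocycles of `toInt A` as 2-cocycles of `A`. -/
def cocOfInt₂ : cocycles₂ (toInt A) →+ cocycles₂ A where
  toFun c := ⟨(c : G × G → A.V), (mem_cocycles₂_toInt_iff A _).1 c.2⟩
  map_zero' := rfl
  map_add' _ _ := rfl

@[simp] theorem coe_cocToInt₁ (c : cocycles₁ A) : (cocToInt₁ A c : G → A.V) = c := rfl
@[simp] theorem coe_cocOfInt₁ (c : cocycles₁ (toInt A)) : (cocOfInt₁ A c : G → A.V) = c := rfl
@[simp] theorem coe_cocToInt₂ (c : cocycles₂ A) : (cocToInt₂ A c : G × G → A.V) = c := rfl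
@[simp] theorem coe_cocOfInt₂ (c : cocycles₂ (toInt A)) :
    (cocOfInt₂ A c : G × G → A.V) = c := rfl

/-! ### The comparison isomorphisms -/

/-- `H¹(G, A_ℤ) → H¹(G, A)`. -/
def H1OfInt : H1 (toInt A) →+ H1 A :=
  H1descAdd (toInt A) ((H1πAdd A).comp (cocOfInt₁ A)) (fun c hc => by
    rw [AddMonoidHom.comp_apply, H1πAdd_apply, H1π_eq_zero_iff]
    exact (mem_coboundaries₁_toInt_iff A _).1 hc)

/-- `H¹(G, A) → H¹(G, A_ℤ)`. -/
def H1ToInt : H1 A →+ H1 (toInt A) :=
  H1descAdd A ((H1πAdd (toInt A)).comp (cocToInt₁ A)) (fun c hc => by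
    rw [AddMonoidHom.comp_apply, H1πAdd_apply, H1π_eq_zero_iff]
    exact (mem_coboundaries₁_toInt_iff A _).2 hc)

@[simp] theorem H1OfInt_mk (c : cocycles₁ (toInt A)) :
    H1OfInt A ((H1π (toInt A)).hom c) = (H1π A).hom (cocOfInt₁ A c) :=
  H1descAdd_mk (toInt A) _ _ c

@[simp] theorem H1ToInt_mk (c : cocycles₁ A) :
    H1ToInt A ((H1π A).hom c) = (H1π (toInt A)).hom (cocToInt₁ A c) :=
  H1descAdd_mk A _ _ c

/-- `H¹(G, A_ℤ) ≃+ H¹(G, A)`. -/
def H1IntEquiv : H1 (toInt A) ≃+ H1 A where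
  toFun := H1OfInt A
  invFun := H1ToInt A
  left_inv x := by
    induction x using H1_induction_on with | @h c =>
    rw [H1OfInt_mk, H1ToInt_mk]
    rfl
  right_inv x := by
    induction x using H1_induction_on with | @h c =>
    rw [H1ToInt_mk, H1OfInt_mk]
    rfl
  map_add' := map_add _

@[simp] theorem H1IntEquiv_mk (c : cocycles₁ (toInt A)) :
    H1IntEquiv A ((H1π (toInt A)).hom c) = (H1π A).hom (cocOfInt₁ A c) := H1OfInt_mk A c

/-- `H²(G, A_ℤ) → H²(G, A)`. -/
def H2OfInt : H2 (toInt A) →+ H2 A :=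
  H2descAdd (toInt A) ((H2πAdd A).comp (cocOfInt₂ A)) (fun c hc => by
    rw [AddMonoidHom.comp_apply, H2πAdd_apply, H2π_eq_zero_iff]
    exact (mem_coboundaries₂_toInt_iff A _).1 hc)

/-- `H²(G, A) → H²(G, A_ℤ)`. -/
def H2ToInt : H2 A →+ H2 (toInt A) :=
  H2descAdd A ((H2πAdd (toInt A)).comp (cocToInt₂ A)) (fun c hc => by
    rw [AddMonoidHom.comp_apply, H2πAdd_apply, H2π_eq_zero_iff]
    exact (mem_coboundaries₂_toInt_iff A _).2 hc)

@[simp] theorem H2OfInt_mk (c : cocycles₂ (toInt A)) :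
    H2OfInt A ((H2π (toInt A)).hom c) = (H2π A).hom (cocOfInt₂ A c) :=
  H2descAdd_mk (toInt A) _ _ c

@[simp] theorem H2ToInt_mk (c : cocycles₂ A) :
    H2ToInt A ((H2π A).hom c) = (H2π (toInt A)).hom (cocToInt₂ A c) :=
  H2descAdd_mk A _ _ c

/-- `H²(G, A_ℤ) ≃+ H²(G, A)`. -/
def H2IntEquiv : H2 (toInt A) ≃+ H2 A where
  toFun := H2OfInt A
  invFun := H2ToInt A
  left_inv x := by
    induction x using H2_induction_on with | @h c =>
    rw [H2OfInt_mk, H2ToInt_mk]
    rfl
  right_inv x := by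
    induction x using H2_induction_on with | @h c =>
    rw [H2ToInt_mk, H2OfInt_mk]
    rfl
  map_add' := map_add _

@[simp] theorem H2IntEquiv_mk (c : cocycles₂ (toInt A)) :
    H2IntEquiv A ((H2π (toInt A)).hom c) = (H2π A).hom (cocOfInt₂ A c) := H2OfInt_mk A c

/-! ### Naturality -/

section Naturality

variable {A}
variable {G' : Type} [Group G'] {B : Rep.{0, 0, 0} k G'} (f : G' →* G) (φ : Rep.res f A ⟶ B)

/-- The morphism over `ℤ` underlying a morphism over `k`. -/
def toIntHom : Rep.res f (toInt A) ⟶ toInt B :=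
  Rep.ofHom ⟨(φ.hom : A.V →ₗ[k] B.V).toAddMonoidHom.toIntLinearMap, fun g =>
    LinearMap.ext fun x => Rep.hom_comm_apply φ g x⟩

@[simp] theorem toIntHom_apply (a : A.V) : (toIntHom f φ).hom a = φ.hom a := rfl

theorem H1IntEquiv_map (x : H1 (toInt A)) :
    H1IntEquiv B ((groupCohomology.map f (toIntHom f φ) 1).hom x) =
      (groupCohomology.map f φ 1).hom (H1IntEquiv A x) := by
  induction x using H1_induction_on with | @h c =>
  have h1 : (groupCohomology.map f (toIntHom f φ) 1).hom ((H1π (toInt A)).hom c) =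
      (H1π (toInt B)).hom ((mapCocycles₁ f (toIntHom f φ)).hom c) :=
    H1π_comp_map_apply f (toIntHom f φ) c
  have h2 : (groupCohomology.map f φ 1).hom ((H1π A).hom (cocOfInt₁ A c)) =
      (H1π B).hom ((mapCocycles₁ f φ).hom (cocOfInt₁ A c)) :=
    H1π_comp_map_apply f φ (cocOfInt₁ A c)
  rw [h1, H1IntEquiv_mk, H1IntEquiv_mk, h2]
  rfl

theorem H2IntEquiv_map (x : H2 (toInt A)) :
    H2IntEquiv B ((groupCohomology.map f (toIntHom f φ) 2).hom x) =
      (groupCohomology.map f φ 2).hom (H2IntEquiv A x) := by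
  induction x using H2_induction_on with | @h c =>
  have h1 : (groupCohomology.map f (toIntHom f φ) 2).hom ((H2π (toInt A)).hom c) =
      (H2π (toInt B)).hom ((mapCocycles₂ f (toIntHom f φ)).hom c) := by
    have hcomp := congrArg (fun ψ => ψ.hom c)
      (H2π_comp_map (A := toInt A) (B := toInt B) f (toIntHom f φ))
    simp only [ModuleCat.hom_comp, LinearMap.comp_apply] at hcomp
    exact hcomp
  have h2 : (groupCohomology.map f φ 2).hom ((H2π A).hom (cocOfInt₂ A c)) =
      (H2π B).hom ((mapCocycles₂ f φ).hom (cocOfInt₂ A c)) := by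
    have hcomp := congrArg (fun ψ => ψ.hom (cocOfInt₂ A c))
      (H2π_comp_map (A := A) (B := B) f φ)
    simp only [ModuleCat.hom_comp, LinearMap.comp_apply] at hcomp
    exact hcomp
  rw [h1, H2IntEquiv_mk, H2IntEquiv_mk, h2]
  rfl

/-- `toInt` commutes with restriction (definitionally). -/
theorem toInt_res : toInt (Rep.res f A) = Rep.res f (toInt A) := rfl

end Naturality

end

end Fermat.Agent.S55.E1.H603
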