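/-
S55 / engine E1 / block LIM, leaf LIM5 (helper603): coefficient functoriality of `𝔈²` and the
Shapiro comparison `ker(𝔈²_G(E) → 𝔈²_G(Coind X)) = ker(tr_φ : 𝔈²_G(E) → 𝔈²_D(X))`.

* `e2Map N f : 𝔈²(X) → 𝔈²(Y)` for `f : X ⟶ Y`;
* `trE2_comp_e2Map` : `tr_{π, ν, f ≫ ι} = tr_{π, ν, ι} ∘ f_*`;
* `ALG12Spec` : (Shapiro on `𝔈²`) `tr_{φ, 𝟙, ev₁} : 𝔈²_G(Coind_φ X) → 𝔈²_D(X)` is injective
  for `φ : D →* G` injective, `G` finite;
* `e2Map_eq_zero_iff` : consequence for a morphism `E ⟶ Coind_φ X`.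
No sorry.
-/
import Fermat.Agent.S55.E1.SpecAlg3
import Fermat.Agent.S55.E1.SpecAlg2

set_option autoImplicit false

open CategoryTheory CategoryTheory.Limits groupCohomology

namespace Fermat.Agent.S55.E1.H603

open Fermat.Agent.S55.E1
open Fermat.Agent.S55.T.H719 (ihomLin)

noncomputable section

variable {G G' : Type} [Group G] [Group G']

/-- The formula for `groupCohomology.map` in degree one on classes of cocycles. -/
theorem map_H1π (π : G' →* G) {A : Rep.{0} ℤ G} {B : Rep.{0} ℤ G'} (φ : Rep.res π A ⟶ B)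
    (c : cocycles₁ A) :
    (groupCohomology.map π φ 1).hom ((H1π A).hom c) =
      (H1π B).hom ((mapCocycles₁ π φ).hom c) :=
  H1π_comp_map_apply (A := A) (B := B) π φ c

/-- The formula for `groupCohomology.map` in degree two on classes of cocycles. -/
theorem map_H2π (π : G' →* G) {A : Rep.{0} ℤ G} {B : Rep.{0} ℤ G'} (φ : Rep.res π A ⟶ B)
    (c : cocycles₂ A) :
    (groupCohomology.map π φ 2).hom ((H2π A).hom c) =
      (H2π B).hom ((mapCocycles₂ π φ).hom c) := by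
  have hcomp := congrArg (fun ψ => ψ.hom c) (H2π_comp_map (A := A) (B := B) π φ)
  simp only [ModuleCat.hom_comp, LinearMap.comp_apply] at hcomp
  exact hcomp

/-- `f_* : 𝔈²(X) → 𝔈²(Y)` for a morphism of coefficient modules `f : X ⟶ Y`. -/
def e2Map (N : Rep.{0} ℤ G) {X Y : Rep.{0} ℤ G} (f : X ⟶ Y) : E2 N X →ₗ[ℤ] E2 N Y :=
  (groupCohomology.map (MonoidHom.id G) ((Rep.ihom (stdR N)).map f) 1).hom

theorem e2Map_H1π (N : Rep.{0} ℤ G) {X Y : Rep.{0} ℤ G} (f : X ⟶ Y)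
    (c : cocycles₁ ((Rep.ihom (stdR N)).obj X)) :
    e2Map N f ((H1π _).hom c) =
      (H1π ((Rep.ihom (stdR N)).obj Y)).hom
        ((mapCocycles₁ (MonoidHom.id G) ((Rep.ihom (stdR N)).map f)).hom c) := by
  unfold e2Map
  exact map_H1π (A := (Rep.ihom (stdR N)).obj X) (B := (Rep.ihom (stdR N)).obj Y)
    (MonoidHom.id G) ((Rep.ihom (stdR N)).map f) c

theorem trE2_H1π (π : G' →* G) {N : Rep.{0} ℤ G} {N' : Rep.{0} ℤ G'} (ν : N' ⟶ Rep.res π N)
    {X : Rep.{0} ℤ G} {X' : Rep.{0} ℤ G'} (ι : Rep.res π X ⟶ X')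
    (c : cocycles₁ ((Rep.ihom (stdR N)).obj X)) :
    trE2 π ν ι ((H1π _).hom c) =
      (H1π ((Rep.ihom (stdR N')).obj X')).hom
        ((mapCocycles₁ π (trIhom π (trR π ν) ι)).hom c) := by
  unfold trE2
  exact map_H1π (A := (Rep.ihom (stdR N)).obj X) (B := (Rep.ihom (stdR N')).obj X')
    π (trIhom π (trR π ν) ι) c

/-- `tr_{π, ν, f ≫ ι} = tr_{π, ν, ι} ∘ f_*`. -/
theorem trE2_comp_e2Map (π : G' →* G) {N : Rep.{0} ℤ G} {N' : Rep.{0} ℤ G'}
    (ν : N' ⟶ Rep.res π N) {X Y : Rep.{0} ℤ G} {X' : Rep.{0} ℤ G'} (f : X ⟶ Y)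
    (ι : Rep.res π Y ⟶ X') (y : E2 N X) :
    trE2 π ν ((Rep.resFunctor π).map f ≫ ι) y = trE2 π ν ι (e2Map N f y) := by
  induction y using H1_induction_on with | @h c =>
  rw [trE2_H1π, e2Map_H1π, trE2_H1π]
  rfl

/-- **ALG12 (Shapiro on `𝔈²`).** For `φ : D →* G` injective (`G` finite) and a `D`-module `X`,
the map `tr_{φ, 𝟙, ev₁} : 𝔈²_G(Coind_φ X) → 𝔈²_D(X)` (restriction to `D`, evaluation at `1`,
restriction to the standard presentation of `N|_D`) is injective. -/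
def ALG12Spec : Prop :=
  ∀ (G D : Type) [Group G] [Group D] [Finite G] (φ : D →* G), Function.Injective φ →
    ∀ (N : Rep.{0} ℤ G) (X : Rep.{0} ℤ D),
      Function.Injective
        (trE2 φ (𝟙 (Rep.res φ N)) (H173.ev1Hom φ X) :
          E2 N (Rep.coind φ X) → E2 (Rep.res φ N) X)

/-- Consequence of ALG12: for `d : E ⟶ Coind_φ X` with `ev₁ ∘ d = emb`, the kernel of
`d_* : 𝔈²_G(E) → 𝔈²_G(Coind_φ X)` is the kernel of `tr_{φ, 𝟙, emb} : 𝔈²_G(E) → 𝔈²_D(X)`. -/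
theorem e2Map_eq_zero_iff (h12 : ALG12Spec) {D : Type} [Group D] [Finite G] (φ : D →* G)
    (hφ : Function.Injective φ) (N E : Rep.{0} ℤ G) (X : Rep.{0} ℤ D)
    (d : E ⟶ Rep.coind φ X) (emb : Rep.res φ E ⟶ X)
    (hemb : (Rep.resFunctor φ).map d ≫ H173.ev1Hom φ X = emb) (y : E2 N E) :
    e2Map N d y = 0 ↔ trE2 φ (𝟙 (Rep.res φ N)) emb y = 0 := by
  rw [← hemb, trE2_comp_e2Map]
  constructor
  · intro h
    rw [h, map_zero]
  · intro h
    exact h12 G D φ hφ N X (by rw [h, map_zero])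

end

end Fermat.Agent.S55.E1.H603
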