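/-
S55 / engine E1 / block LIM, leaf LIM5 (helper603): the identification
`Hom_ℤ(N, X) ≅ B` for `N = B^*(χ)` and a module `X` with `X[p] = ⟨z⟩ ≅ μ_p`.

Abstract setting: `Γ` a group, `B : Rep (ZMod p) Γ` finite dimensional, `χ : Γ →* (ZMod p)ˣ`,
* `DualModel B χ N` : `N : Rep ℤ Γ` with an equivariant additive bijection `N ≃ B.dualTwist χ`;
* `MuData χ X`     : `z ∈ X` of order `p` generating `X[p]`, with `g z = χ(g) z`;
* `lam : toInt B ⟶ Hom_ℤ(N, X)`, `m ↦ (n ↦ ⟨n, m⟩ • z)`, bijective (`lam_bijective`);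
* `lam_tr` : compatibility with change of group.
No sorry.
-/
import Fermat.Prelude.Def_GroupCohomology_Selmer
import Fermat.Agent.S55.E1.H603.CoeffInt
import Fermat.Agent.S55.E1.Tr.Defs
import Fermat.Agent.S55.E1.H603.E2Map

set_option autoImplicit false
set_option linter.style.haveILetI false

open CategoryTheory groupCohomology

namespace Fermat.Agent.S55.E1.H603

open Fermat.Agent.S55.E1
open Fermat.Agent.S55.T.H719 (ihomLin ihomMk)

noncomputable section

section Generic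

variable {k : Type} [CommRing k] {Γ : Type} [Group Γ] {N X A Y : Rep.{0} k Γ}

/-- An additive, `k`-homogeneous map as an element of `Hom_k(N, X)`. -/
def ihomOfAddGen (f : N.V →+ X.V) (hf : ∀ (c : k) (n : N.V), f (c • n) = c • f n) :
    ((Rep.ihom N).obj X).V :=
  ihomMk { toFun := f, map_add' := f.map_add, map_smul' := hf }

theorem ihomOfAddGen_apply (f : N.V →+ X.V) (hf : ∀ (c : k) (n : N.V), f (c • n) = c • f n)
    (n : N.V) : ihomLin (ihomOfAddGen f hf) n = f n := rfl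

theorem ihom_ext {φ ψ : ((Rep.ihom N).obj X).V} (h : ∀ n, ihomLin φ n = ihomLin ψ n) :
    φ = ψ := LinearMap.ext h

theorem ihomLin_add (φ ψ : ((Rep.ihom N).obj X).V) (n : N.V) :
    ihomLin (φ + ψ) n = ihomLin φ n + ihomLin ψ n := rfl

theorem ihomLin_sub (φ ψ : ((Rep.ihom N).obj X).V) (n : N.V) :
    ihomLin (φ - ψ) n = ihomLin φ n - ihomLin ψ n := rfl

theorem ihomLin_zero (n : N.V) : ihomLin (0 : ((Rep.ihom N).obj X).V) n = 0 := rfl

theorem ihomLin_neg (φ : ((Rep.ihom N).obj X).V) (n : N.V) :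
    ihomLin (-φ) n = -ihomLin φ n := rfl

/-- An additive, homogeneous, equivariant map as a morphism of representations. -/
def repHomOfAddGen (f : A.V →+ Y.V) (hf : ∀ (c : k) (a : A.V), f (c • a) = c • f a)
    (hcomm : ∀ (g : Γ) (a : A.V), f (A.ρ g a) = Y.ρ g (f a)) : A ⟶ Y :=
  Rep.ofHom ⟨{ toFun := f, map_add' := f.map_add, map_smul' := hf },
    fun g => LinearMap.ext fun a => hcomm g a⟩

theorem repHomOfAddGen_apply (f : A.V →+ Y.V) (hf : ∀ (c : k) (a : A.V), f (c • a) = c • f a)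
    (hcomm : ∀ (g : Γ) (a : A.V), f (A.ρ g a) = Y.ρ g (f a)) (a : A.V) :
    (repHomOfAddGen f hf hcomm).hom a = f a := rfl

end Generic

section IntHelpers

variable {Γ : Type} [Group Γ]

/-- An additive map as an element of `Hom_ℤ(N, X)`. -/
def ihomOfAdd {N X : Rep.{0} ℤ Γ} (f : N.V →+ X.V) : ((Rep.ihom N).obj X).V :=
  ihomOfAddGen (k := ℤ) f (fun c n => by
    have h1 := int_smul_eq_zsmul N.hV2 c n
    have h2 := int_smul_eq_zsmul X.hV2 c (f n)
    exact (congrArg f h1).trans ((map_zsmul f c n).trans h2.symm))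

theorem ihomOfAdd_apply {N X : Rep.{0} ℤ Γ} (f : N.V →+ X.V) (n : N.V) :
    ihomLin (ihomOfAdd f) n = f n := rfl

/-- An additive equivariant map as a morphism in `Rep ℤ Γ`. -/
def repHomOfAdd {A Y : Rep.{0} ℤ Γ} (f : A.V →+ Y.V)
    (hcomm : ∀ (g : Γ) (a : A.V), f (A.ρ g a) = Y.ρ g (f a)) : A ⟶ Y :=
  repHomOfAddGen (k := ℤ) f (fun c n => by
    have h1 := int_smul_eq_zsmul A.hV2 c n
    have h2 := int_smul_eq_zsmul Y.hV2 c (f n)
    exact (congrArg f h1).trans ((map_zsmul f c n).trans h2.symm)) hcomm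

theorem repHomOfAdd_apply {A Y : Rep.{0} ℤ Γ} (f : A.V →+ Y.V)
    (hcomm : ∀ (g : Γ) (a : A.V), f (A.ρ g a) = Y.ρ g (f a)) (a : A.V) :
    (repHomOfAdd f hcomm).hom a = f a := rfl

end IntHelpers

variable {p : ℕ} [Fact p.Prime] {Γ : Type} [Group Γ]

/-- A `μ_p`-structure on `X`: an element `z` of order `p` generating the `p`-torsion, on which
`Γ` acts through `χ`. -/
structure MuData (χ : Γ →* (ZMod p)ˣ) (X : Rep.{0} ℤ Γ) where
  /-- the generator -/
  z : X.V
  p_nsmul : p • z = 0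
  ne_zero : z ≠ 0
  tors : ∀ x : X.V, p • x = 0 → ∃ k : ℕ, x = k • z
  act : ∀ g : Γ, X.ρ g z = ((χ g : ZMod p).val) • z

namespace MuData

variable {χ : Γ →* (ZMod p)ˣ} {X : Rep.{0} ℤ Γ} (μ : MuData χ X)

/-- `a ↦ a • z`, `ZMod p →+ X`. -/
def zl : ZMod p →+ X.V :=
  ZMod.lift p ⟨zmultiplesHom X.V μ.z, by
    rw [zmultiplesHom_apply, natCast_zsmul]
    exact μ.p_nsmul⟩

theorem zl_natCast (k : ℕ) : μ.zl (k : ZMod p) = k • μ.z := by
  have h : μ.zl ((k : ℤ) : ZMod p) = zmultiplesHom X.V μ.z (k : ℤ) := ZMod.lift_coe p _ _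
  rw [zmultiplesHom_apply, natCast_zsmul] at h
  rw [← h]
  norm_cast

theorem zl_apply (a : ZMod p) : μ.zl a = a.val • μ.z := by
  haveI : NeZero p := ⟨(Fact.out : p.Prime).ne_zero⟩
  conv_lhs => rw [← ZMod.natCast_zmod_val a]
  exact μ.zl_natCast a.val

theorem zl_one : μ.zl 1 = μ.z := by
  have := μ.zl_natCast 1
  simpa using this

theorem addOrderOf_z : addOrderOf μ.z = p :=
  addOrderOf_eq_prime μ.p_nsmul μ.ne_zero

theorem zl_injective : Function.Injective μ.zl := by
  haveI : NeZero p := ⟨(Fact.out : p.Prime).ne_zero⟩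
  rw [injective_iff_map_eq_zero]
  intro a ha
  rw [zl_apply] at ha
  have hdvd : p ∣ a.val := by
    have h := addOrderOf_dvd_of_nsmul_eq_zero ha
    rwa [μ.addOrderOf_z] at h
  have hlt : a.val < p := ZMod.val_lt a
  have h0 : a.val = 0 := Nat.eq_zero_of_dvd_of_lt hdvd hlt
  exact (ZMod.val_eq_zero a).1 h0

theorem exists_zl_eq (x : X.V) (hx : p • x = 0) : ∃ a : ZMod p, μ.zl a = x := by
  obtain ⟨k, rfl⟩ := μ.tors x hx
  exact ⟨(k : ZMod p), μ.zl_natCast k⟩

theorem ρ_zl (g : Γ) (a : ZMod p) : X.ρ g (μ.zl a) = μ.zl ((χ g : ZMod p) * a) := by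
  haveI : NeZero p := ⟨(Fact.out : p.Prime).ne_zero⟩
  rw [zl_apply, map_nsmul, μ.act g, ← mul_nsmul']
  rw [← zl_natCast]
  have h : (((a.val * (χ g : ZMod p).val : ℕ)) : ZMod p) = (χ g : ZMod p) * a := by
    rw [Nat.cast_mul, ZMod.natCast_zmod_val, ZMod.natCast_zmod_val, mul_comm]
  rw [h]

end MuData

/-- A model over `ℤ` of the Tate-twisted dual `B^*(χ)`. -/
structure DualModel (B : Rep.{0, 0, 0} (ZMod p) Γ) (χ : Γ →* (ZMod p)ˣ) (N : Rep.{0} ℤ Γ) where
  /-- the identification -/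
  e : N.V ≃+ Module.Dual (ZMod p) B.V
  equivariant : ∀ (g : Γ) (n : N.V), e (N.ρ g n) = (B.dualTwist χ).ρ g (e n)

section Lam

variable {B : Rep.{0, 0, 0} (ZMod p) Γ} {χ : Γ →* (ZMod p)ˣ} {N X : Rep.{0} ℤ Γ}
  (dm : DualModel B χ N) (μ : MuData χ X)

/-- Evaluation at `m`, as an additive map on the dual. -/
def evalAt (m : B.V) : Module.Dual (ZMod p) B.V →+ ZMod p :=
  (LinearMap.applyₗ m : Module.Dual (ZMod p) B.V →ₗ[ZMod p] ZMod p).toAddMonoidHom

@[simp] theorem evalAt_apply (m : B.V) (f : Module.Dual (ZMod p) B.V) : evalAt m f = f m := rfl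

/-- `n ↦ ⟨n, m⟩ • z`, as an additive map. -/
def lamAdd (m : B.V) : N.V →+ X.V := μ.zl.comp ((evalAt m).comp dm.e.toAddMonoidHom)

theorem lamAdd_apply (m : B.V) (n : N.V) : lamAdd dm μ m n = μ.zl (dm.e n m) := rfl

theorem lamAdd_zero (n : N.V) : lamAdd dm μ 0 n = 0 := by
  rw [lamAdd_apply, map_zero, map_zero]

theorem lamAdd_add (m m' : B.V) (n : N.V) :
    lamAdd dm μ (m + m') n = lamAdd dm μ m n + lamAdd dm μ m' n := by
  rw [lamAdd_apply, lamAdd_apply, lamAdd_apply, map_add, map_add]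

theorem DualModel.e_ρ_inv_apply (g : Γ) (n : N.V) (m : B.V) :
    dm.e (N.ρ g⁻¹ n) m = ((χ g⁻¹ : (ZMod p)ˣ) : ZMod p) * dm.e n (B.ρ g m) := by
  rw [dm.equivariant, Rep.dualTwist_ρ_apply, inv_inv]
  rfl

theorem lamAdd_ρ (g : Γ) (m : B.V) (n : N.V) :
    lamAdd dm μ (B.ρ g m) n = X.ρ g (lamAdd dm μ m (N.ρ g⁻¹ n)) := by
  rw [lamAdd_apply, lamAdd_apply, μ.ρ_zl, dm.e_ρ_inv_apply, ← mul_assoc, ← Units.val_mul,
    ← map_mul, mul_inv_cancel, map_one, Units.val_one, one_mul]

/-- The additive map underlying `lam`. -/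
def lamHomAdd : (toInt B).V →+ ((Rep.ihom N).obj X).V where
  toFun m := ihomOfAdd (lamAdd dm μ m)
  map_zero' := ihom_ext fun n => lamAdd_zero dm μ n
  map_add' m m' := ihom_ext fun n => lamAdd_add dm μ m m' n

/-- `Λ : B ⟶ Hom_ℤ(N, X)`, `m ↦ (n ↦ ⟨n, m⟩ • z)`. -/
def lam : toInt B ⟶ (Rep.ihom N).obj X :=
  repHomOfAdd (lamHomAdd dm μ) (fun g m => ihom_ext fun n => lamAdd_ρ dm μ g m n)

theorem lam_hom_apply (m : B.V) (n : N.V) :
    ihomLin ((lam dm μ).hom m) n = μ.zl (dm.e n m) := rfl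

theorem lam_hom_eq (m : B.V) : (lam dm μ).hom m = ihomOfAdd (lamAdd dm μ m) := rfl

include dm in
/-- `N` is killed by `p`. -/
theorem DualModel.p_nsmul (n : N.V) : p • n = 0 := by
  apply dm.e.injective
  rw [map_nsmul, map_zero]
  have h : ((p : ZMod p)) • dm.e n = p • dm.e n := Nat.cast_smul_eq_nsmul (ZMod p) p (dm.e n)
  rw [← h, ZMod.natCast_self, zero_smul]

theorem lam_injective : Function.Injective (lam dm μ).hom := by
  intro (m : B.V) (m' : B.V) h
  have h1 : ∀ n : N.V, dm.e n m = dm.e n m' := fun n => by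
    apply μ.zl_injective
    have := congrArg (fun φ => ihomLin φ n) h
    exact this
  have h2 : ∀ f : Module.Dual (ZMod p) B.V, f (m - m') = 0 := fun f => by
    obtain ⟨n, rfl⟩ := dm.e.surjective f
    rw [map_sub, h1 n, sub_self]
  have h3 := (Module.forall_dual_apply_eq_zero_iff (ZMod p) (m - m')).1 h2
  exact sub_eq_zero.1 h3

theorem lam_surjective [Module.Finite (ZMod p) B.V] : Function.Surjective (lam dm μ).hom := by
  intro φ
  have h1 : ∀ n : N.V, p • ihomLin φ n = 0 := fun n => by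
    rw [← map_nsmul, DualModel.p_nsmul dm, map_zero]
  have hex : ∀ f : Module.Dual (ZMod p) B.V, ∃ a : ZMod p, μ.zl a = ihomLin φ (dm.e.symm f) :=
    fun f => μ.exists_zl_eq _ (h1 _)
  choose lf hlf using hex
  let lAdd : Module.Dual (ZMod p) B.V →+ ZMod p :=
    { toFun := lf
      map_zero' := by
        apply μ.zl_injective
        rw [hlf, map_zero, map_zero, map_zero]
      map_add' := fun f f' => by
        apply μ.zl_injective
        rw [map_add, hlf, hlf, hlf, map_add, map_add] }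
  let lLin : Module.Dual (ZMod p) (Module.Dual (ZMod p) B.V) := lAdd.toZModLinearMap p
  refine ⟨(Module.evalEquiv (ZMod p) B.V).symm lLin, ?_⟩
  refine ihom_ext fun n => ?_
  change μ.zl (dm.e n ((Module.evalEquiv (ZMod p) B.V).symm lLin)) = ihomLin φ n
  rw [Module.apply_evalEquiv_symm_apply]
  change μ.zl (lf (dm.e n)) = ihomLin φ n
  rw [hlf, AddEquiv.symm_apply_apply]

theorem lam_bijective [Module.Finite (ZMod p) B.V] : Function.Bijective (lam dm μ).hom :=
  ⟨lam_injective dm μ, lam_surjective dm μ⟩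

end Lam

/-! ### Bijective morphisms induce bijections on cohomology -/

section Iso

variable {k : Type} [CommRing k] {Γ : Type} [Group Γ]

/-- The linear equivalence underlying a bijective morphism. -/
def linEquivOfBijective {A Y : Rep.{0} k Γ} (f : A ⟶ Y) (hf : Function.Bijective f.hom) :
    A.V ≃ₗ[k] Y.V :=
  LinearEquiv.ofBijective f.hom.toLinearMap hf

theorem linEquivOfBijective_apply {A Y : Rep.{0} k Γ} (f : A ⟶ Y)
    (hf : Function.Bijective f.hom) (a : A.V) : linEquivOfBijective f hf a = f.hom a := rfl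

/-- The inverse of a bijective morphism. -/
def invOfBijective {A Y : Rep.{0} k Γ} (f : A ⟶ Y) (hf : Function.Bijective f.hom) : Y ⟶ A :=
  Rep.ofHom ⟨(linEquivOfBijective f hf).symm.toLinearMap, fun g => by
    refine LinearMap.ext fun y => ?_
    apply (linEquivOfBijective f hf).injective
    change (linEquivOfBijective f hf) ((linEquivOfBijective f hf).symm (Y.ρ g y)) =
      f.hom (A.ρ g ((linEquivOfBijective f hf).symm y))
    rw [LinearEquiv.apply_symm_apply, Rep.hom_comm_apply]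
    congr 1
    exact ((linEquivOfBijective f hf).apply_symm_apply y).symm⟩

theorem invOfBijective_hom_apply {A Y : Rep.{0} k Γ} (f : A ⟶ Y)
    (hf : Function.Bijective f.hom) (y : Y.V) :
    (invOfBijective f hf).hom y = (linEquivOfBijective f hf).symm y := rfl

theorem comp_invOfBijective {A Y : Rep.{0} k Γ} (f : A ⟶ Y) (hf : Function.Bijective f.hom) :
    f ≫ invOfBijective f hf = 𝟙 A := by
  apply Rep.hom_ext
  apply DFunLike.ext
  intro a
  exact (linEquivOfBijective f hf).symm_apply_apply a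

theorem invOfBijective_comp {A Y : Rep.{0} k Γ} (f : A ⟶ Y) (hf : Function.Bijective f.hom) :
    invOfBijective f hf ≫ f = 𝟙 Y := by
  apply Rep.hom_ext
  apply DFunLike.ext
  intro y
  exact (linEquivOfBijective f hf).apply_symm_apply y

theorem map_bijective_of_bijective {A Y : Rep.{0} k Γ} (f : A ⟶ Y)
    (hf : Function.Bijective f.hom) (n : ℕ) :
    Function.Bijective (groupCohomology.map (MonoidHom.id Γ) f n).hom := by
  have e1 : groupCohomology.map (MonoidHom.id Γ) f n ≫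
      groupCohomology.map (MonoidHom.id Γ) (invOfBijective f hf) n = 𝟙 _ := by
    rw [← groupCohomology.map_id_comp, comp_invOfBijective]
    exact groupCohomology.map_id (B := A) n
  have e2 : groupCohomology.map (MonoidHom.id Γ) (invOfBijective f hf) n ≫
      groupCohomology.map (MonoidHom.id Γ) f n = 𝟙 _ := by
    rw [← groupCohomology.map_id_comp, invOfBijective_comp]
    exact groupCohomology.map_id (B := Y) n
  refine Function.bijective_iff_has_inverse.2
    ⟨(groupCohomology.map (MonoidHom.id Γ) (invOfBijective f hf) n).hom, fun x => ?_, fun y => ?_⟩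
  · have := congrArg (fun φ => φ.hom x) e1
    simpa using this
  · have := congrArg (fun φ => φ.hom y) e2
    simpa using this

end Iso

/-! ### Compatibility with change of group -/

section Tr

variable {Γ Γ' : Type} [Group Γ] [Group Γ'] (π : Γ' →* Γ)
variable {B : Rep.{0, 0, 0} (ZMod p) Γ} {χ : Γ →* (ZMod p)ˣ}
variable {N X : Rep.{0} ℤ Γ} {N' X' : Rep.{0} ℤ Γ'}
variable (dm : DualModel B χ N) (μ : MuData χ X)
variable (dm' : DualModel (Rep.res π B) (χ.comp π) N') (μ' : MuData (χ.comp π) X')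
variable (ν : N' ⟶ Rep.res π N) (ι : Rep.res π X ⟶ X')

include μ μ' in
theorem ι_zl (hι : ι.hom μ.z = μ'.z) (a : ZMod p) : ι.hom (μ.zl a) = μ'.zl a := by
  rw [μ.zl_apply, μ'.zl_apply, ← hι]
  exact map_nsmul ι.hom a.val μ.z

theorem lam_tr (hν : ∀ n' : N'.V, dm.e (ν.hom n') = dm'.e n') (hι : ι.hom μ.z = μ'.z)
    (m : B.V) : (trIhom π ν ι).hom ((lam dm μ).hom m) = (lam dm' μ').hom m := by
  refine ihom_ext fun n' => ?_
  change ι.hom (μ.zl (dm.e (ν.hom n') m)) = μ'.zl (dm'.e n' m)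
  rw [ι_zl π μ μ' ι hι, hν]

end Tr

end

end Fermat.Agent.S55.E1.H603
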