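/-
S55 / engine E1 / block LIM, leaf LIM5 (helper603): the edge relation under change of group.

Pure algebra on top of `E1/SpecAlg3.lean` (ALG9, ALG9a, ALG10Edge, ALG11 are HYPOTHESES):
* `isEdge_zero_left`, `isEdge_unique`, `exists_isEdge` : `IsEdge` is a function (ALG9);
* `edge_eq_zero_of_inf_eq_zero` : if `inf x = 0` at a higher level satisfying Hilbert 90 then
  `e(x) = 0`  (ALG10Edge + ALG11);
* `exists_cochain_of_edge_eq_zero`, `inf_eq_zero_of_divisible` : if `e(x) = 0` then `inf x = 0`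
  at every higher level in which the values of a suitable `φ₀ : R → X` become `p`-divisible
  (ALG9a + ALG10Edge).
No sorry.
-/
import Fermat.Agent.S55.E1.SpecAlg3

set_option autoImplicit false

open CategoryTheory CategoryTheory.Limits groupCohomology

namespace Fermat.Agent.S55.E1.H603

open Fermat.Agent.S55.E1
open Fermat.Agent.S55.T.H719 (ihomLin)

noncomputable section

variable {G G' : Type} [Group G] [Group G']

/-- `e(0) = 0`. -/
theorem isEdge_zero_left (h9 : ALG9Spec) [Finite G] {N X : Rep.{0} ℤ G} {y : E2 N X}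
    (h : IsEdge (0 : groupCohomology ((Rep.ihom N).obj X) 2) y) : y = 0 := by
  obtain ⟨b, hb, rfl⟩ := h
  have hb0 : b = 0 := (h9 G N X).1 (by rw [hb, map_zero])
  rw [hb0, map_zero]

/-- The edge relation is total (ALG9). -/
theorem exists_isEdge (h9 : ALG9Spec) [Finite G] {N X : Rep.{0} ℤ G}
    (x : groupCohomology ((Rep.ihom N).obj X) 2) : ∃ y : E2 N X, IsEdge x y := by
  obtain ⟨b, hb⟩ := (h9 G N X).2 x
  exact ⟨edgeIncl N X b, b, hb, rfl⟩

/-- The edge relation is functional (ALG9). -/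
theorem isEdge_unique (h9 : ALG9Spec) [Finite G] {N X : Rep.{0} ℤ G}
    {x : groupCohomology ((Rep.ihom N).obj X) 2} {y y' : E2 N X}
    (h : IsEdge x y) (h' : IsEdge x y') : y = y' := by
  obtain ⟨b, hb, rfl⟩ := h
  obtain ⟨b', hb', rfl⟩ := h'
  have : b = b' := (h9 G N X).1 (hb.trans hb'.symm)
  rw [this]

/-- The edge relation is additive. -/
theorem IsEdge.add {N X : Rep.{0} ℤ G} {x x' : groupCohomology ((Rep.ihom N).obj X) 2}
    {y y' : E2 N X} (h : IsEdge x y) (h' : IsEdge x' y') : IsEdge (x + x') (y + y') := by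
  obtain ⟨b, rfl, rfl⟩ := h
  obtain ⟨b', rfl, rfl⟩ := h'
  exact ⟨b + b', map_add _ _ _, map_add _ _ _⟩

theorem IsEdge.neg {N X : Rep.{0} ℤ G} {x : groupCohomology ((Rep.ihom N).obj X) 2}
    {y : E2 N X} (h : IsEdge x y) : IsEdge (-x) (-y) := by
  obtain ⟨b, rfl, rfl⟩ := h
  exact ⟨-b, map_neg _ _, map_neg _ _⟩

theorem isEdge_zero (N X : Rep.{0} ℤ G) :
    IsEdge (0 : groupCohomology ((Rep.ihom N).obj X) 2) (0 : E2 N X) :=
  ⟨0, map_zero _, map_zero _⟩

/-- `incl_*` on classes of cocycles. -/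
theorem edgeIncl_H1π {N X : Rep.{0} ℤ G} (β : cocycles₁ (edgeB N X)) :
    edgeIncl N X ((H1π (edgeB N X)).hom β) =
      (H1π ((Rep.ihom (stdR N)).obj X)).hom
        ((mapCocycles₁ (MonoidHom.id G) (ihomImageIncl (stdι N) X)).hom β) := by
  unfold edgeIncl T.coeffMap
  exact H1π_comp_map_apply (A := edgeB N X) (B := (Rep.ihom (stdR N)).obj X)
    (MonoidHom.id G) (ihomImageIncl (stdι N) X) β

/-- **(⇐)** If `inf x = 0` at a higher level satisfying Hilbert 90, then `e(x) = 0`. -/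
theorem edge_eq_zero_of_inf_eq_zero (h9 : ALG9Spec) (h10 : ALG10EdgeSpec) (h11 : ALG11Spec)
    [Finite G'] (π : G' →* G) (hπ : Function.Surjective π)
    (N : Rep.{0} ℤ G) (N' : Rep.{0} ℤ G') (ν : N' ≅ Rep.res π N)
    (X : Rep.{0} ℤ G) (X' : Rep.{0} ℤ G') (ι : Rep.res π X ⟶ X')
    (hι : Function.Injective ι.hom)
    (hinv : ∀ x' : X'.V, (∀ h ∈ π.ker, X'.ρ h x' = x') → ∃ x : X.V, ι.hom x = x')
    (hH90 : IsZero (groupCohomology (T.resSub X' π.ker) 1))
    {x : groupCohomology ((Rep.ihom N).obj X) 2} {y : E2 N X} (hxy : IsEdge x y)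
    (hx : (groupCohomology.map π (trIhom π ν.hom ι) 2).hom x = 0) : y = 0 := by
  have h1 := isEdge_tr_of h10 π ν.hom ι hxy
  rw [hx] at h1
  have h2 : trE2 π ν.hom ι y = 0 := isEdge_zero_left h9 h1
  exact h11 G G' π hπ N N' ν X X' ι hι hinv hH90 (by rw [h2, map_zero])

/-- **(⇒), step 1.** If `e(x) = 0` then `x = δ'[β]` for a cocycle `β : G → 𝔹` which becomes
the coboundary of some `φ₀` in `Hom_ℤ(R, X)`. -/
theorem exists_cochain_of_edge_eq_zero {N X : Rep.{0} ℤ G}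
    {x : groupCohomology ((Rep.ihom N).obj X) 2} (hx : IsEdge x (0 : E2 N X)) :
    ∃ (β : cocycles₁ (edgeB N X)) (φ₀ : ((Rep.ihom (stdR N)).obj X).V),
      edgeδ N X ((H1π (edgeB N X)).hom β) = x ∧
      ∀ g : G, (ihomImageIncl (stdι N) X).hom (β g) =
        ((Rep.ihom (stdR N)).obj X).ρ g φ₀ - φ₀ := by
  obtain ⟨b, hb, hinc⟩ := hx
  obtain ⟨β, rfl⟩ := (ModuleCat.epi_iff_surjective (H1π (edgeB N X))).1 inferInstance b
  rw [edgeIncl_H1π, H1π_eq_zero_iff] at hinc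
  obtain ⟨φ₀, hφ₀⟩ := hinc
  refine ⟨β, φ₀, hb, fun g => ?_⟩
  have := congrFun hφ₀ g
  rw [d₀₁_hom_apply] at this
  exact this.symm

/-- **(⇒), step 2.** In the situation of step 1, `inf x = 0` along every change of group for
which the values of `φ₀` become `p`-divisible. -/
theorem inf_eq_zero_of_divisible (h9a : ALG9aSpec) (h10 : ALG10EdgeSpec) (p : ℕ) (hp : p.Prime)
    (π : G' →* G) (N : Rep.{0} ℤ G) (N' : Rep.{0} ℤ G') (ν : N' ⟶ Rep.res π N)
    (hN' : ∀ n : N'.V, p • n = 0)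
    (X : Rep.{0} ℤ G) (X' : Rep.{0} ℤ G') (ι : Rep.res π X ⟶ X')
    (β : cocycles₁ (edgeB N X)) (φ₀ : ((Rep.ihom (stdR N)).obj X).V)
    (hβ : ∀ g : G, (ihomImageIncl (stdι N) X).hom (β g) =
        ((Rep.ihom (stdR N)).obj X).ρ g φ₀ - φ₀)
    (hdiv : ∀ r : (stdR N).V, ∃ x' : X'.V, ι.hom (ihomLin φ₀ r) = p • x') :
    (groupCohomology.map π (trIhom π ν ι) 2).hom
      (edgeδ N X ((H1π (edgeB N X)).hom β)) = 0 := by
  -- the transported cochain lies in `𝔹'`
  have hmem : (trIhom π (trR π ν) ι).hom φ₀ ∈ ihomImage (stdι N') X' := by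
    apply h9a p hp G' N' X' hN'
    intro r
    exact hdiv ((trR π ν).hom r)
  -- the class of `tr β` vanishes
  have hzero : (groupCohomology.map π (trEdgeB π ν ι) 1).hom ((H1π (edgeB N X)).hom β) = 0 := by
    have h1 : (groupCohomology.map π (trEdgeB π ν ι) 1).hom ((H1π (edgeB N X)).hom β) =
        (H1π (edgeB N' X')).hom ((mapCocycles₁ π (trEdgeB π ν ι)).hom β) :=
      H1π_comp_map_apply (A := edgeB N X) (B := edgeB N' X') π (trEdgeB π ν ι) β
    rw [h1, H1π_eq_zero_iff]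
    let b₀ : (edgeB N' X').V := ⟨(trIhom π (trR π ν) ι).hom φ₀, hmem⟩
    refine ⟨b₀, ?_⟩
    funext g'
    rw [d₀₁_hom_apply]
    apply Subtype.ext
    have hcomm := Rep.hom_comm_apply (trIhom π (trR π ν) ι) g' φ₀
    have hβ' := congrArg (trIhom π (trR π ν) ι).hom (hβ (π g'))
    rw [map_sub] at hβ'
    change ((Rep.ihom (stdR N')).obj X').ρ g' ((trIhom π (trR π ν) ι).hom φ₀) -
      (trIhom π (trR π ν) ι).hom φ₀ =
      (trIhom π (trR π ν) ι).hom ((ihomImageIncl (stdι N) X).hom (β (π g')))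
    rw [hβ', ← hcomm]
    rfl
  obtain ⟨h1, -⟩ := h10 G G' π N N' ν X X' ι ((H1π (edgeB N X)).hom β)
  rw [← h1, hzero, map_zero]

end

end Fermat.Agent.S55.E1.H603
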