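/-
S55 / engine E1 / block LIM, leaf LIM5 (helper603): DEFINITIONS of the morphism `e : Ш² → K`
on helper474's systems (`E1/Lim/Sys.lean`), and the four statements from which
`∃ e : AddSys.Hom c.sysSh c.sysK, e.EvInj ∧ e.EvSurj` follows (`lim5_of_specs`).

* `edgeFun N X : H²(G, Hom_ℤ(N, X)) →+ 𝔈²(X)` : the edge map as a function (ALG9),
  `isEdge_edgeFun`, `edgeFun_eq`, `edgeFun_tr` (ALG10Edge);
* `cfEquiv`, `theta c hμ L : M_L ⟶ Hom_ℤ(N_L, E(F))` (helper295's `evalHom` on the `cf` models),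
  `theta_bijective`, `thetaH2`, `thetaH2_bijective`;
* `eFun c hμ L : H²(Gal(F/ℚ), M^{U_F}) →+ 𝔈²_F(E)`;
* `Lim5iSpec`, `Lim5iiSpec`, `Lim5iiiSpec`, `Lim5CompatSpec`, `lim5_of_specs`.
No sorry.
-/
import Fermat.Agent.S55.E1.Lim.Sys
import Fermat.Agent.S55.E1.H295.BidualLoc
import Fermat.Agent.S55.E1.H895.Alg911Final
import Fermat.Agent.S55.E1.H603.Lambda
import Fermat.Agent.S55.E1.H603.LocalEdge

set_option autoImplicit false

open CategoryTheory CategoryTheory.Limits groupCohomology ExtCitation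

namespace Fermat.Agent.S55.E1.H603

open Fermat.Agent.S55.E1 Fermat.Agent.S55.Tow Fermat.Agent.S55.E1.Lim

noncomputable section

/-! ### The edge map as a function -/

section Edge

variable {G G' : Type} [Group G] [Finite G] [Group G'] [Finite G']

/-- `δ' : H¹(G, 𝔹) ≃ H²(G, Hom_ℤ(N, X))` (ALG9). -/
def edgeδEquiv (N X : Rep.{0} ℤ G) :
    groupCohomology (edgeB N X) 1 ≃+ groupCohomology ((Rep.ihom N).obj X) 2 :=
  AddEquiv.ofBijective (edgeδ N X).toAddMonoidHom (H895.Final.alg9 G N X)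

theorem edgeδEquiv_apply (N X : Rep.{0} ℤ G) (b : groupCohomology (edgeB N X) 1) :
    edgeδEquiv N X b = edgeδ N X b := rfl

/-- The edge map `e = incl_* ∘ δ'⁻¹ : H²(G, Hom_ℤ(N, X)) → 𝔈²(X)`. -/
def edgeFun (N X : Rep.{0} ℤ G) : groupCohomology ((Rep.ihom N).obj X) 2 →+ E2 N X :=
  (edgeIncl N X).toAddMonoidHom.comp (edgeδEquiv N X).symm.toAddMonoidHom

theorem isEdge_edgeFun {N X : Rep.{0} ℤ G} (x : groupCohomology ((Rep.ihom N).obj X) 2) :
    IsEdge x (edgeFun N X x) :=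
  ⟨(edgeδEquiv N X).symm x, (edgeδEquiv N X).apply_symm_apply x, rfl⟩

theorem edgeFun_eq {N X : Rep.{0} ℤ G} {x : groupCohomology ((Rep.ihom N).obj X) 2}
    {y : E2 N X} (h : IsEdge x y) : edgeFun N X x = y :=
  isEdge_unique H895.Final.alg9 (isEdge_edgeFun x) h

theorem isEdge_iff {N X : Rep.{0} ℤ G} {x : groupCohomology ((Rep.ihom N).obj X) 2}
    {y : E2 N X} : IsEdge x y ↔ edgeFun N X x = y :=
  ⟨edgeFun_eq, fun h => h ▸ isEdge_edgeFun x⟩

/-- The edge map commutes with the transition maps (ALG10Edge). -/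
theorem edgeFun_tr (π : G' →* G) {N : Rep.{0} ℤ G} {N' : Rep.{0} ℤ G'} (ν : N' ⟶ Rep.res π N)
    {X : Rep.{0} ℤ G} {X' : Rep.{0} ℤ G'} (ι : Rep.res π X ⟶ X')
    (x : groupCohomology ((Rep.ihom N).obj X) 2) :
    edgeFun N' X' ((groupCohomology.map π (trIhom π ν ι) 2).hom x) =
      trE2 π ν ι (edgeFun N X x) :=
  edgeFun_eq (isEdge_tr_of H895.Final.alg10Edge π ν ι (isEdge_edgeFun x))

end Edge

/-! ### The bidual isomorphism on the `cf` models -/

section Theta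

variable {S : Finset Nat.Primes}

/-- `(A^{U_F})` is all of `A` when `U_F` acts trivially. -/
def cfEquiv {K : Type} [Field K] (A : Rep.{0, 0, 0} K GQ) (L : Level S)
    (hA : ∀ s ∈ L.U, ∀ a : A, A.ρ s a = a) : (cf A L).V ≃+ A.V where
  toFun := cfVal A
  invFun := cfMk A hA
  left_inv _ := cfVal_injective A rfl
  right_inv _ := rfl
  map_add' _ _ := rfl

@[simp] theorem cfEquiv_apply {K : Type} [Field K] (A : Rep.{0, 0, 0} K GQ) (L : Level S)
    (hA : ∀ s ∈ L.U, ∀ a : A, A.ρ s a = a) (a : (cf A L).V) :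
    cfEquiv A L hA a = cfVal A a := rfl

variable {p : ℕ} [Fact p.Prime] (c : Ctx S p) (hμ : c.base.HasMu p)

include hμ in
theorem hasMu_at (L : c.Idx) : L.1.HasMu p := hμ.mono L.2

theorem evalCompat_cf (L : c.Idx) :
    H295.EvalCompat (c.ML L) (c.NL L) (sUnits L.1) c.M (cfEquiv c.M L.1 (c.hM_at L))
      (cfEquiv c.N L.1 (c.hN_at L)) (H295.muToSUnits L.1 (hasMu_at c hμ L)) := by
  intro γ
  induction γ using QuotientGroup.induction_on with
  | H σ =>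
    exact ⟨σ, fun a => rfl, fun b => rfl,
      fun t => H295.muToSUnits_equivariant L.1 (hasMu_at c hμ L) σ t⟩

/-- `Θ_F : M_F ⟶ Hom_ℤ(N_F, E(F))`, `m ↦ (f ↦ ⟨m, f⟩ ∈ μ_p ⊂ E(F))`. -/
def theta (L : c.Idx) : c.ML L ⟶ (Rep.ihom (c.NL L)).obj (sUnits L.1) :=
  H295.evalHom (evalCompat_cf c hμ L)

theorem theta_bijective [FiniteDimensional (ZMod p) c.M] (L : c.Idx) :
    Function.Bijective (theta c hμ L).hom :=
  H295.evalHom_bijective _ (H295.muToSUnits_injective L.1 (hasMu_at c hμ L))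
    (H295.exists_muToSUnits_eq L.1 (hasMu_at c hμ L))

/-- `Θ_F` on `H²`: `H²(Gal(F/ℚ), M^{U_F}) → H²(Gal(F/ℚ), Hom_ℤ(N_F, E(F)))`. -/
def thetaH2 (L : c.Idx) :
    H2 (coeff c.M L.1) →+ groupCohomology ((Rep.ihom (c.NL L)).obj (sUnits L.1)) 2 :=
  ((groupCohomology.map (MonoidHom.id L.1.Gal) (theta c hμ L) 2).hom.toAddMonoidHom).comp
    (H2IntEquiv (coeff c.M L.1)).symm.toAddMonoidHom

theorem thetaH2_bijective [FiniteDimensional (ZMod p) c.M] (L : c.Idx) :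
    Function.Bijective (thetaH2 c hμ L) :=
  (map_bijective_of_bijective (theta c hμ L) (theta_bijective c hμ L) 2).comp
    (H2IntEquiv (coeff c.M L.1)).symm.bijective

/-- `e_F : H²(Gal(F/ℚ), M^{U_F}) → 𝔈²_F(E)`. -/
def eFun (L : c.Idx) : H2 (coeff c.M L.1) →+ E2 (c.NL L) (sUnits L.1) :=
  (edgeFun (c.NL L) (sUnits L.1)).comp (thetaH2 c hμ L)

theorem isEdge_eFun (L : c.Idx) (x : H2 (coeff c.M L.1)) :
    IsEdge (thetaH2 c hμ L x) (eFun c hμ L x) := isEdge_edgeFun _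

/-! ### The four statements of LIM5 -/

/-- **LIM5 (i).** `Ш²_F = e_F⁻¹(K_F)`. -/
def Lim5iSpec : Prop :=
  ∀ (L : c.Idx) (x : H2 (coeff c.M L.1)), x ∈ c.ShSub L ↔ eFun c hμ L x ∈ c.KSub L

/-- **LIM5 (ii).** `e_F(x) = 0 ⇒ x` dies at a higher level. -/
def Lim5iiSpec : Prop :=
  ∀ (L : c.Idx) (x : H2 (coeff c.M L.1)), eFun c hμ L x = 0 →
    ∃ (L' : c.Idx) (h : L ≤ L'), tr₂ c.M (S := S) h x = 0

/-- **LIM5 (iii).** Every `y ∈ 𝔈²_F(E)` lies in the image of `e` at a higher level. -/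
def Lim5iiiSpec : Prop :=
  ∀ (L : c.Idx) (y : E2 (c.NL L) (sUnits L.1)),
    ∃ (L' : c.Idx) (h : L ≤ L') (x' : H2 (coeff c.M L'.1)),
      eFun c hμ L' x' = trE2 (c.π h) (c.ν h) (trS h) y

/-- **LIM5 (compatibility).** `e` commutes with the transition maps. -/
def Lim5CompatSpec : Prop :=
  ∀ {L L' : c.Idx} (h : L ≤ L') (x : H2 (coeff c.M L.1)),
    eFun c hμ L' (tr₂ c.M (S := S) h x) = trE2 (c.π h) (c.ν h) (trS h) (eFun c hμ L x)

/-- **LIM5, assembly.** -/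
theorem lim5_of_specs (h1 : Lim5iSpec c hμ) (h2 : Lim5iiSpec c hμ) (h3 : Lim5iiiSpec c hμ)
    (h4 : Lim5CompatSpec c hμ) :
    ∃ e : AddSys.Hom c.sysSh c.sysK, e.EvInj ∧ e.EvSurj := by
  let app : ∀ L : c.Idx, c.sysSh.obj L →+ c.sysK.obj L := fun L =>
    { toFun := fun x => ⟨eFun c hμ L x.1, (h1 L x.1).1 x.2⟩
      map_zero' := Subtype.ext (map_zero (eFun c hμ L))
      map_add' := fun x y => Subtype.ext (map_add (eFun c hμ L) x.1 y.1) }
  refine ⟨⟨app, fun {L L'} h x => Subtype.ext (h4 h x.1)⟩, ?_, ?_⟩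
  · intro L x hx
    have hx0 : eFun c hμ L x.1 = 0 := congrArg Subtype.val hx
    obtain ⟨L', h, hL'⟩ := h2 L x.1 hx0
    exact ⟨L', h, Subtype.ext hL'⟩
  · intro L y
    obtain ⟨L', h, x', hx'⟩ := h3 L y.1
    have hK : eFun c hμ L' x' ∈ c.KSub L' := by
      rw [hx']
      exact c.trE2_mem_KSub h y.1 y.2
    exact ⟨L', h, ⟨x', (h1 L' x').2 hK⟩, Subtype.ext hx'⟩

end Theta

end

end Fermat.Agent.S55.E1.H603
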