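/-
S55 / engine E1 / block LIM, leaf LIM5 (helper603): `e` commutes with the transition maps.

* `theta_tr` : `tr ∘ Θ_F = Θ_{F'} ∘ (M^{U_F} ⊆ M^{U_{F'}})`;
* `thetaH2_tr₂` : the same on `H²`;
* `lim5Compat : Lim5CompatSpec c hμ`.
No sorry.
-/
import Fermat.Agent.S55.E1.H603.Lim5Defs

set_option autoImplicit false

open CategoryTheory CategoryTheory.Limits groupCohomology ExtCitation

namespace Fermat.Agent.S55.E1.H603

open Fermat.Agent.S55.E1 Fermat.Agent.S55.Tow Fermat.Agent.S55.E1.Lim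
open Fermat.Agent.S55.T.H719 (ihomLin)

noncomputable section

variable {S : Finset Nat.Primes} {p : ℕ} [Fact p.Prime] (c : Ctx S p) (hμ : c.base.HasMu p)

theorem theta_hom_apply (L : c.Idx) (m : (c.ML L).V) (n : (c.NL L).V) :
    ihomLin ((theta c hμ L).hom m) n =
      H295.muToSUnits L.1 (hasMu_at c hμ L)
        (Fermat.Agent.S55.Bridge.evalMuP c.M (cfVal c.M m) (cfVal c.N n)) := rfl

theorem trS_muToSUnits {L L' : c.Idx} (h : L ≤ L') (t : Fermat.Agent.S55.Bridge.MuP p) :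
    (trS (S := S) h).hom (H295.muToSUnits L.1 (hasMu_at c hμ L) t) =
      H295.muToSUnits L'.1 (hasMu_at c hμ L') t := by
  apply sIncl_injective L'.1
  rfl

/-- `tr ∘ Θ_F = Θ_{F'} ∘ (M^{U_F} ⊆ M^{U_{F'}})`. -/
theorem theta_tr {L L' : c.Idx} (h : L ≤ L') (m : (c.ML L).V) :
    (trIhom (c.π h) (c.ν h) (trS h)).hom ((theta c hμ L).hom m) =
      (theta c hμ L').hom ((cfμ c.M (S := S) h).hom m) := by
  refine ihom_ext fun n' => ?_
  change (trS (S := S) h).hom (ihomLin ((theta c hμ L).hom m) ((c.ν h).hom n')) = _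
  rw [theta_hom_apply, theta_hom_apply, trS_muToSUnits c hμ h]
  rfl

theorem H2IntEquiv_symm_mk {k G : Type} [CommRing k] [Group G] (A : Rep.{0, 0, 0} k G)
    (cc : cocycles₂ A) :
    (H2IntEquiv A).symm ((H2π A).hom cc) = (H2π (toInt A)).hom (cocToInt₂ A cc) := by
  rw [AddEquiv.symm_apply_eq, H2IntEquiv_mk]
  rfl

theorem thetaH2_mk (L : c.Idx) (cc : cocycles₂ (coeff c.M L.1)) :
    thetaH2 c hμ L ((H2π (coeff c.M L.1)).hom cc) =
      (H2π ((Rep.ihom (c.NL L)).obj (sUnits L.1))).hom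
        ((mapCocycles₂ (MonoidHom.id L.1.Gal) (theta c hμ L)).hom
          (cocToInt₂ (coeff c.M L.1) cc)) := by
  change (groupCohomology.map (MonoidHom.id L.1.Gal) (theta c hμ L) 2).hom
    ((H2IntEquiv (coeff c.M L.1)).symm ((H2π (coeff c.M L.1)).hom cc)) = _
  rw [H2IntEquiv_symm_mk]
  exact map_H2π (A := c.ML L) (B := (Rep.ihom (c.NL L)).obj (sUnits L.1))
    (MonoidHom.id L.1.Gal) (theta c hμ L) _

/-- `Θ` on `H²` commutes with the transition maps. -/
theorem thetaH2_tr₂ {L L' : c.Idx} (h : L ≤ L') (x : H2 (coeff c.M L.1)) :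
    thetaH2 c hμ L' (tr₂ c.M (S := S) h x) =
      (groupCohomology.map (c.π h) (trIhom (c.π h) (c.ν h) (trS h)) 2).hom
        (thetaH2 c hμ L x) := by
  induction x using H2_induction_on with | @h cc =>
  rw [tr₂_mk, thetaH2_mk, thetaH2_mk]
  rw [map_H2π (A := (Rep.ihom (c.NL L)).obj (sUnits L.1))
    (B := (Rep.ihom (c.NL L')).obj (sUnits L'.1)) (c.π h) (trIhom (c.π h) (c.ν h) (trS h))]
  congr 1

/-- **LIM5 (compatibility).** -/
theorem lim5Compat : Lim5CompatSpec c hμ := by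
  intro L L' h x
  change edgeFun (c.NL L') (sUnits L'.1) (thetaH2 c hμ L' (tr₂ c.M (S := S) h x)) = _
  rw [thetaH2_tr₂, edgeFun_tr]
  rfl

end

end Fermat.Agent.S55.E1.H603
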