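/-
S55 / engine E1 / block LIM, leaf LIM5(i), LOCAL TOWER (helper603).

For a level `F`, a prime `q`, `D = Gal(F_q/ℚ_q)`, a finite `D`-module `N` killed by `p`,
`x ∈ H²(D, Hom_ℤ(N, F_qˣ))` and `y = e(x) ∈ 𝔈²_D(F_qˣ)`:

  `y = 0  ↔  x dies in H²(Gal(F'_q/ℚ_q), Hom_ℤ(N, F'_qˣ))` for some finite Galois `F' ⊇ F`
  (a level for some `S'' ⊇ S`).

* `locInf h q N` : the local inflation map;
* `exists_level_locDiv` : uniform local divisibility (from `Tow.LocalSpec`, LDIV);
* `edge_eq_zero_of_locInf_eq_zero` (LH90 + ALG9/10Edge/11), `exists_locInf_eq_zero` (LDIV + ALG1/9a/10E),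
  `edge_eq_zero_iff_exists_locInf`.
All ALG inputs are theorems on main (`E1/H895/Alg911Final.lean`, `E1/H304/Alg1.lean`); the only
hypothesis is `Tow.LocalSpec p`.  No sorry.
-/
import Fermat.Agent.S55.E1.H895.Alg911Final
import Fermat.Agent.S55.E1.H304.Alg1
import Fermat.Agent.S55.E1.H423.Lim5Core
import Fermat.Agent.S55.Spec.Datum
import Fermat.Agent.S55.E1.H603.LocalEdge

set_option autoImplicit false

open CategoryTheory CategoryTheory.Limits groupCohomology

namespace Fermat.Agent.S55.E1.H603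

open Fermat.Agent.S55.E1 Fermat.Agent.S55.Tow
open Fermat.Agent.S55.T.H719 (ihomLin)

noncomputable section

variable {S : Finset Nat.Primes}

/-! ### Elementary facts on the local tower -/

theorem projDec_surjective {L L' : Level S} (h : L ≤ L') (q : Nat.Primes) :
    Function.Surjective (Level.projDec h q) := by
  intro d
  induction d using QuotientGroup.induction_on with
  | H g => exact ⟨QuotientGroup.mk g, rfl⟩

theorem trLoc_injective {L L' : Level S} (h : L ≤ L') (q : Nat.Primes) :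
    Function.Injective (Level.trLoc h q).hom := by
  intro x y hxy
  apply L.locCoe_injective q
  have := congrArg (L'.locCoe q) hxy
  exact this

theorem locCoe_trLoc {L L' : Level S} (h : L ≤ L') (q : Nat.Primes) (x : (L.locUnits q).V) :
    L'.locCoe q ((Level.trLoc h q).hom x) = L.locCoe q x := rfl

theorem exists_trLoc_eq_of_invariant {L L' : Level S} (h : L ≤ L') (q : Nat.Primes)
    (x' : (L'.locUnits q).V)
    (hx' : ∀ d ∈ (Level.projDec h q).ker, (L'.locUnits q).ρ d x' = x') :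
    ∃ x : (L.locUnits q).V, (Level.trLoc h q).hom x = x' := by
  have hfix : ∀ g ∈ L.V q, (unitsQpbar q).ρ g (L'.locCoe q x') = L'.locCoe q x' := by
    intro g hg
    have hker : (QuotientGroup.mk g : L'.Dec q) ∈ (Level.projDec h q).ker := by
      rw [MonoidHom.mem_ker, Level.projDec_mk]
      exact (QuotientGroup.eq_one_iff g).2 hg
    have := congrArg (L'.locCoe q) (hx' _ hker)
    rw [Level.locUnits_ρ_coe] at this
    exact this
  refine ⟨L.locMk q (L'.locCoe q x') hfix, ?_⟩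
  apply L'.locCoe_injective q
  rfl

/-! ### The local inflation map -/

/-- Local inflation `H²(Gal(F_q/ℚ_q), Hom_ℤ(N, F_qˣ)) → H²(Gal(F'_q/ℚ_q), Hom_ℤ(N, F'_qˣ))`. -/
def locInf {L L' : Level S} (h : L ≤ L') (q : Nat.Primes) (N : Rep.{0} ℤ (L.Dec q)) :
    groupCohomology ((Rep.ihom N).obj (L.locUnits q)) 2 →ₗ[ℤ]
      groupCohomology ((Rep.ihom (Rep.res (Level.projDec h q) N)).obj (L'.locUnits q)) 2 :=
  (groupCohomology.map (Level.projDec h q)
    (trIhom (Level.projDec h q) (𝟙 (Rep.res (Level.projDec h q) N)) (Level.trLoc h q)) 2).hom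

/-- **(⇐)** If `x` dies at a higher local level then `e(x) = 0` (LH90, ALG9, ALG10Edge, ALG11). -/
theorem edge_eq_zero_of_locInf_eq_zero {p : ℕ} (hLoc : LocalSpec p) {L L' : Level S} (h : L ≤ L')
    (q : Nat.Primes) (N : Rep.{0} ℤ (L.Dec q))
    {x : groupCohomology ((Rep.ihom N).obj (L.locUnits q)) 2} {y : E2 N (L.locUnits q)}
    (hxy : IsEdge x y) (hx : locInf h q N x = 0) : y = 0 :=
  edge_eq_zero_of_inf_eq_zero H895.Final.alg9 H895.Final.alg10Edge H895.Final.alg11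
    (Level.projDec h q) (projDec_surjective h q) N (Rep.res (Level.projDec h q) N) (Iso.refl _)
    (L.locUnits q) (L'.locUnits q) (Level.trLoc h q) (trLoc_injective h q)
    (exists_trLoc_eq_of_invariant h q) (hLoc.2.1 S L L' h q) hxy hx

/-! ### Uniform local divisibility -/

theorem trLoc_trLoc_ofLE {S' S'' : Finset Nat.Primes} (hS : S ⊆ S') (hS' : S' ⊆ S'')
    (L : Level S) (L₁ : Level S') (L₂ : Level S'') (h₁ : Level.ofLE hS L ≤ L₁)
    (h₂ : Level.ofLE hS' L₁ ≤ L₂) (h : Level.ofLE (hS.trans hS') L ≤ L₂) (q : Nat.Primes)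
    (t : (L.locUnits q).V) :
    (Level.trLoc h₂ q).hom ((Level.trLoc h₁ q).hom t) = (Level.trLoc h q).hom t := by
  apply L₂.locCoe_injective q
  rfl

/-- **Uniform LDIV.** Finitely many elements of `F_qˣ` become `p`-th powers in `F'_qˣ` for a
suitable finite Galois `F' ⊇ F`. -/
theorem exists_level_locDiv {p : ℕ} (hLoc : LocalSpec p) (L : Level S) (q : Nat.Primes)
    (s : Finset (L.locUnits q).V) :
    ∃ (S' : Finset Nat.Primes) (hS : S ⊆ S') (L' : Level S') (h : Level.ofLE hS L ≤ L'),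
      ∀ t ∈ s, ∃ y : (L'.locUnits q).V, p • y = (Level.trLoc h q).hom t := by
  classical
  induction s using Finset.induction_on with
  | empty =>
    exact ⟨S, Finset.Subset.refl S, L, le_refl L.F, fun t ht => absurd ht (Finset.notMem_empty t)⟩
  | insert t₀ s₀ _ ih =>
    obtain ⟨S₁, hS₁, L₁, h₁, hdiv₁⟩ := ih
    obtain ⟨S₂, hS₂, L₂, h₂, y₀, hy₀⟩ := hLoc.2.2 S₁ L₁ q ((Level.trLoc h₁ q).hom t₀)
    have hF : L.F ≤ L₂.F := le_trans (show L.F ≤ L₁.F from h₁) (show L₁.F ≤ L₂.F from h₂)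
    have h : Level.ofLE (hS₁.trans hS₂) L ≤ L₂ := hF
    refine ⟨S₂, hS₁.trans hS₂, L₂, h, fun t ht => ?_⟩
    rcases Finset.mem_insert.1 ht with rfl | ht
    · refine ⟨y₀, ?_⟩
      rw [hy₀]
      exact trLoc_trLoc_ofLE hS₁ hS₂ L L₁ L₂ h₁ h₂ h q t
    · obtain ⟨y₁, hy₁⟩ := hdiv₁ t ht
      refine ⟨(Level.trLoc h₂ q).hom y₁, ?_⟩
      rw [← trLoc_trLoc_ofLE hS₁ hS₂ L L₁ L₂ h₁ h₂ h q t, ← hy₁]
      exact (map_nsmul (Level.trLoc h₂ q).hom p y₁).symm

/-- **(⇒)** If `e(x) = 0` then `x` dies at a higher local level (LDIV, ALG1, ALG9a, ALG10Edge). -/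
theorem exists_locInf_eq_zero {p : ℕ} (hp : p.Prime) (hLoc : LocalSpec p) (L : Level S)
    (q : Nat.Primes) (N : Rep.{0} ℤ (L.Dec q)) (hNfin : Finite N.V) (hN : ∀ n : N.V, p • n = 0)
    {x : groupCohomology ((Rep.ihom N).obj (L.locUnits q)) 2}
    (hx : IsEdge x (0 : E2 N (L.locUnits q))) :
    ∃ (S' : Finset Nat.Primes) (hS : S ⊆ S') (L' : Level S') (h : Level.ofLE hS L ≤ L'),
      locInf (L := Level.ofLE hS L) h q N x = 0 := by
  classical
  obtain ⟨φ, hφ⟩ := H423.exists_forall_inf_eq_zero H895.Final.alg10Edge hp x hx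
  have hfin := (H304.alg1 (L.Dec q) N hNfin).2.1
  obtain ⟨s, hs⟩ := H423.exists_finset_closure_eq_top (stdR N) hfin
  obtain ⟨S', hS, L', h, hdiv⟩ :=
    exists_level_locDiv hLoc L q (s.image (fun r => ihomLin φ r))
  refine ⟨S', hS, L', h, ?_⟩
  refine hφ (L'.Dec q) (Level.projDec h q) (Rep.res (Level.projDec h q) N) (𝟙 _)
    (L'.locUnits q) (Level.trLoc h q) hN ?_
  refine H423.div_of_div_on_generators (Level.projDec h q) (Level.trLoc h q) p φ
    (s : Set (stdR N).V) hs (fun r hr => ?_)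
  obtain ⟨y, hy⟩ := hdiv (ihomLin φ r) (Finset.mem_image_of_mem _ hr)
  exact ⟨y, hy.symm⟩

/-- **LIM5(i), local tower.** For `y = e(x)`: `y = 0` iff `x` dies at a higher local level. -/
theorem edge_eq_zero_iff_exists_locInf {p : ℕ} (hp : p.Prime) (hLoc : LocalSpec p) (L : Level S)
    (q : Nat.Primes) (N : Rep.{0} ℤ (L.Dec q)) (hNfin : Finite N.V) (hN : ∀ n : N.V, p • n = 0)
    {x : groupCohomology ((Rep.ihom N).obj (L.locUnits q)) 2} {y : E2 N (L.locUnits q)}
    (hxy : IsEdge x y) :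
    y = 0 ↔ ∃ (S' : Finset Nat.Primes) (hS : S ⊆ S') (L' : Level S')
      (h : Level.ofLE hS L ≤ L'), locInf (L := Level.ofLE hS L) h q N x = 0 := by
  constructor
  · rintro rfl
    exact exists_locInf_eq_zero hp hLoc L q N hNfin hN hxy
  · rintro ⟨S', hS, L', h, hx⟩
    exact edge_eq_zero_of_locInf_eq_zero hLoc (L := Level.ofLE hS L) h q N hxy hx

end

end Fermat.Agent.S55.E1.H603
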