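/-
S55 / engine E1 / block LIM, leaf LIM5(i) (helper603): the localisation of `Θ(x)` at `q`.

For a level `F = L` of the context, `q` a prime and a finite Galois `F' ⊇ F` (a level `L'` for
some `S' ⊇ S`):
* `embS L q : Res_{D_q} E(F) ⟶ F_qˣ`;  `xq c hμ L q x ∈ H²(D_q(F), Hom_ℤ(N, F_qˣ))`;
* `thetaLoc` : the local bidual map `Res M ⟶ Hom_ℤ(Res N, F'_qˣ)`, bijective;
* `locInf_xq` : `locInf (x_q) = Θ'_*(locInfl₂ x)`;
* `locInf_xq_eq_zero_iff` : `locInf (x_q) = 0 ↔ locInfl₂ x = 0` (`FinLevelLoc.lean`);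
* `mem_ShSub_iff` : `x ∈ Ш²_F ↔ ∀ q ∈ S, x_q` dies at a higher local level.
No sorry.
-/
import Fermat.Agent.S55.E1.H603.Lim5Compat
import Fermat.Agent.S55.E1.H603.LocalTower
import Fermat.Agent.S55.E1.H603.FinLevelLoc
import Fermat.Agent.S55.E1.H719.Lim2Sys

set_option autoImplicit false

open CategoryTheory CategoryTheory.Limits groupCohomology ExtCitation

namespace Fermat.Agent.S55.E1.H603

open Fermat.Agent.S55.E1 Fermat.Agent.S55.Tow Fermat.Agent.S55.E1.Lim
open Fermat.Agent.S55.T.H719 (ihomLin)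

noncomputable section

variable {S : Finset Nat.Primes}

/-- `E(F) → F_qˣ` as a morphism of `Gal(F_q/ℚ_q)`-modules. -/
def embS (L : Level S) (q : Nat.Primes) : Rep.res (L.decHom q) (sUnits L) ⟶ L.locUnits q :=
  flat (L.decHom q) (sIncl L ≫ L.diag q)

theorem embS_apply (L : Level S) (q : Nat.Primes) (e : (sUnits L).V) :
    (embS L q).hom e = L.embFun q ((sIncl L).hom e) := by
  change L.embFun q (L.units.ρ 1 ((sIncl L).hom e)) = _
  rw [map_one]
  rfl

variable {p : ℕ} [Fact p.Prime] (c : Ctx S p) (hμ : c.base.HasMu p)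

/-- `N_F` restricted to the decomposition group at `q`. -/
abbrev Nq (L : c.Idx) (q : Nat.Primes) : Rep.{0} ℤ (L.1.Dec q) := Rep.res (L.1.decHom q) (c.NL L)

/-- The localisation `x_q ∈ H²(D_q(F), Hom_ℤ(N, F_qˣ))` of `Θ(x)`. -/
def xq (L : c.Idx) (q : Nat.Primes) (x : H2 (coeff c.M L.1)) :
    groupCohomology ((Rep.ihom (Nq c L q)).obj (L.1.locUnits q)) 2 :=
  (groupCohomology.map (L.1.decHom q)
    (trIhom (L.1.decHom q) (𝟙 (Nq c L q)) (embS L.1 q)) 2).hom (thetaH2 c hμ L x)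

/-- The localisation `y_q ∈ 𝔈²_{D_q}(F_qˣ)` of `y ∈ 𝔈²_F(E)`. -/
def yq (L : c.Idx) (q : Nat.Primes) (y : E2 (c.NL L) (sUnits L.1)) :
    E2 (Nq c L q) (L.1.locUnits q) :=
  trE2 (L.1.decHom q) (𝟙 (Nq c L q)) (embS L.1 q) y

theorem isEdge_xq_yq (L : c.Idx) (q : Nat.Primes) (x : H2 (coeff c.M L.1)) :
    IsEdge (xq c hμ L q x) (yq c L q (eFun c hμ L x)) :=
  isEdge_tr_of H895.Final.alg10Edge (L.1.decHom q) (𝟙 (Nq c L q)) (embS L.1 q)
    (isEdge_eFun c hμ L x)

/-! ### The local bidual map at a higher level -/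

section Loc

variable (L : c.Idx) (q : Nat.Primes) {S' : Finset Nat.Primes} (hS : S ⊆ S') (L' : Level S')
  (h : Level.ofLE hS L.1 ≤ L')

include hμ h in
theorem hasMu_up : L'.HasMu p := by
  obtain ⟨ζ, hζ, hprim⟩ := hasMu_at c hμ L
  have hF : L.1.F ≤ L'.F := h
  exact ⟨ζ, hF hζ, hprim⟩

/-- `Gal(F'_q/ℚ_q) → Gal(F/ℚ)`. -/
abbrev piLoc : L'.Dec q →* L.1.Gal := decToGal L.1 (nLevelOf L') h q

/-- `M^{U_F}` as a `Gal(F'_q/ℚ_q)`-module. -/
abbrev MLoc : Rep.{0} ℤ (L'.Dec q) := toInt (Rep.res (piLoc c L q hS L' h) (coeff c.M L.1))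

/-- `N_F` as a `Gal(F'_q/ℚ_q)`-module. -/
abbrev NLoc : Rep.{0} ℤ (L'.Dec q) :=
  Rep.res (Level.projDec (L := Level.ofLE hS L.1) h q) (Nq c L q)

theorem evalCompat_loc :
    H295.EvalCompat (MLoc c L q hS L' h) (NLoc c L q hS L' h) (L'.locUnits q) c.M
      (cfEquiv c.M L.1 (c.hM_at L)) (cfEquiv c.N L.1 (c.hN_at L))
      (H295.muToLoc L' q (hasMu_up c hμ L hS L' h)) := by
  intro γ
  induction γ using QuotientGroup.induction_on with
  | H τ =>
    exact ⟨locQ q τ, fun a => rfl, fun b => rfl,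
      fun t => H295.muToLoc_equivariant L' q (hasMu_up c hμ L hS L' h) τ t⟩

/-- The local bidual map `Θ' : Res M_F ⟶ Hom_ℤ(Res N_F, F'_qˣ)`. -/
def thetaLoc : MLoc c L q hS L' h ⟶ (Rep.ihom (NLoc c L q hS L' h)).obj (L'.locUnits q) :=
  H295.evalHom (evalCompat_loc c hμ L q hS L' h)

theorem thetaLoc_bijective [FiniteDimensional (ZMod p) c.M] :
    Function.Bijective (thetaLoc c hμ L q hS L' h).hom :=
  H295.evalHom_bijective _ (H295.muToLoc_injective L' q (hasMu_up c hμ L hS L' h))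
    (H295.exists_muToLoc_eq L' q (hasMu_up c hμ L hS L' h))

/-- `Θ'` on `H²`. -/
def thetaLocH2 :
    H2 (Rep.res (piLoc c L q hS L' h) (coeff c.M L.1)) →+
      groupCohomology ((Rep.ihom (NLoc c L q hS L' h)).obj (L'.locUnits q)) 2 :=
  ((groupCohomology.map (MonoidHom.id (L'.Dec q)) (thetaLoc c hμ L q hS L' h)
      2).hom.toAddMonoidHom).comp
    (H2IntEquiv (Rep.res (piLoc c L q hS L' h) (coeff c.M L.1))).symm.toAddMonoidHom

theorem thetaLocH2_bijective [FiniteDimensional (ZMod p) c.M] :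
    Function.Bijective (thetaLocH2 c hμ L q hS L' h) :=
  (map_bijective_of_bijective (thetaLoc c hμ L q hS L' h)
    (thetaLoc_bijective c hμ L q hS L' h) 2).comp
    (H2IntEquiv (Rep.res (piLoc c L q hS L' h) (coeff c.M L.1))).symm.bijective

theorem thetaLocH2_mk (cc : cocycles₂ (Rep.res (piLoc c L q hS L' h) (coeff c.M L.1))) :
    thetaLocH2 c hμ L q hS L' h ((H2π _).hom cc) =
      (H2π ((Rep.ihom (NLoc c L q hS L' h)).obj (L'.locUnits q))).hom
        ((mapCocycles₂ (MonoidHom.id (L'.Dec q)) (thetaLoc c hμ L q hS L' h)).hom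
          (cocToInt₂ (Rep.res (piLoc c L q hS L' h) (coeff c.M L.1)) cc)) := by
  change (groupCohomology.map (MonoidHom.id (L'.Dec q)) (thetaLoc c hμ L q hS L' h) 2).hom
    ((H2IntEquiv (Rep.res (piLoc c L q hS L' h) (coeff c.M L.1))).symm ((H2π _).hom cc)) = _
  rw [H2IntEquiv_symm_mk]
  exact map_H2π (A := MLoc c L q hS L' h)
    (B := (Rep.ihom (NLoc c L q hS L' h)).obj (L'.locUnits q))
    (MonoidHom.id (L'.Dec q)) (thetaLoc c hμ L q hS L' h) _

theorem thetaLoc_hom_apply (m : (MLoc c L q hS L' h).V) (n : (NLoc c L q hS L' h).V) :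
    ihomLin ((thetaLoc c hμ L q hS L' h).hom m) n =
      H295.muToLoc L' q (hasMu_up c hμ L hS L' h)
        (Fermat.Agent.S55.Bridge.evalMuP c.M (cfVal c.M m) (cfVal c.N n)) := rfl

theorem trLoc_embS_muToSUnits (t : Fermat.Agent.S55.Bridge.MuP p) :
    (Level.trLoc (L := Level.ofLE hS L.1) h q).hom
        ((embS L.1 q).hom (H295.muToSUnits L.1 (hasMu_at c hμ L) t)) =
      H295.muToLoc L' q (hasMu_up c hμ L hS L' h) t := by
  rw [embS_apply]
  apply L'.locCoe_injective q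
  rfl

theorem piLoc_mk (τ : GQp q) :
    piLoc c L q hS L' h (QuotientGroup.mk τ) =
      L.1.decHom q (Level.projDec (L := Level.ofLE hS L.1) h q (QuotientGroup.mk τ)) := rfl

/-- **Comparison.** The local inflation of `x_q` is `Θ'` applied to the local inflation of `x`
with coefficients in `M`. -/
theorem locInf_xq (x : H2 (coeff c.M L.1)) :
    locInf (L := Level.ofLE hS L.1) h q (Nq c L q) (xq c hμ L q x) =
      thetaLocH2 c hμ L q hS L' h (locInfl₂ c.M L.1 (nLevelOf L') h q x) := by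
  induction x using H2_induction_on with | @h cc =>
  have e1 := locInfl₂_mk c.M L.1 (nLevelOf L') h q cc
  have e2 := thetaLocH2_mk c hμ L q hS L' h (locInflCoc₂ c.M L.1 (nLevelOf L') h q cc)
  have e3 := thetaH2_mk c hμ L cc
  have e4 := map_H2π (A := (Rep.ihom (c.NL L)).obj (sUnits L.1))
    (B := (Rep.ihom (Nq c L q)).obj (L.1.locUnits q)) (L.1.decHom q)
    (trIhom (L.1.decHom q) (𝟙 (Nq c L q)) (embS L.1 q))
    ((mapCocycles₂ (MonoidHom.id L.1.Gal) (theta c hμ L)).hom (cocToInt₂ (coeff c.M L.1) cc))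
  have e5 := map_H2π (A := (Rep.ihom (Nq c L q)).obj (L.1.locUnits q))
    (B := (Rep.ihom (NLoc c L q hS L' h)).obj (L'.locUnits q))
    (Level.projDec (L := Level.ofLE hS L.1) h q)
    (trIhom (Level.projDec (L := Level.ofLE hS L.1) h q) (𝟙 (NLoc c L q hS L' h))
      (Level.trLoc (L := Level.ofLE hS L.1) h q))
    ((mapCocycles₂ (L.1.decHom q) (trIhom (L.1.decHom q) (𝟙 (Nq c L q)) (embS L.1 q))).hom
      ((mapCocycles₂ (MonoidHom.id L.1.Gal) (theta c hμ L)).hom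
        (cocToInt₂ (coeff c.M L.1) cc)))
  have lhs : locInf (L := Level.ofLE hS L.1) h q (Nq c L q)
      (xq c hμ L q ((H2π (coeff c.M L.1)).hom cc)) = _ :=
    (congrArg (locInf (L := Level.ofLE hS L.1) h q (Nq c L q))
      ((congrArg (groupCohomology.map (L.1.decHom q)
        (trIhom (L.1.decHom q) (𝟙 (Nq c L q)) (embS L.1 q)) 2).hom e3).trans e4)).trans e5
  have rhs : thetaLocH2 c hμ L q hS L' h
      (locInfl₂ c.M L.1 (nLevelOf L') h q ((H2π (coeff c.M L.1)).hom cc)) = _ :=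
    (congrArg (thetaLocH2 c hμ L q hS L' h) e1).trans e2
  refine lhs.trans (Eq.trans ?_ rhs.symm)
  congr 1
  apply Subtype.ext
  funext ⟨d, d'⟩
  induction d using QuotientGroup.induction_on with | @H τ =>
  induction d' using QuotientGroup.induction_on with | @H τ' =>
  refine ihom_ext fun n => ?_
  exact trLoc_embS_muToSUnits c hμ L q hS L' h _

/-- `x_q` dies at the local level `F'_q` iff the local inflation of `x` (coefficients in `M`)
vanishes. -/
theorem locInf_xq_eq_zero_iff [FiniteDimensional (ZMod p) c.M] (x : H2 (coeff c.M L.1)) :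
    locInf (L := Level.ofLE hS L.1) h q (Nq c L q) (xq c hμ L q x) = 0 ↔
      locInfl₂ c.M L.1 (nLevelOf L') h q x = 0 := by
  rw [locInf_xq]
  constructor
  · intro h0
    exact (thetaLocH2_bijective c hμ L q hS L' h).1 (h0.trans (map_zero _).symm)
  · intro h0
    rw [h0]
    exact map_zero _

end Loc

/-! ### `Ш²_F` in terms of the local inflation maps -/

theorem two_ne_zero_zmod (hp2 : p ≠ 2) : (2 : ZMod p) ≠ 0 := by
  intro h
  have h' : ((2 : ℕ) : ZMod p) = 0 := by exact_mod_cast h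
  have hdvd : p ∣ 2 := (ZMod.natCast_eq_zero_iff 2 p).1 h'
  have hp : p.Prime := Fact.out
  exact hp2 ((Nat.prime_dvd_prime_iff_eq hp Nat.prime_two).1 hdvd)

/-- **`Ш²_F`, local description.** `x ∈ Ш²_F` iff for every `q ∈ S` the localisation `x_q` of
`Θ(x)` dies in `H²(Gal(F'_q/ℚ_q), Hom_ℤ(N, F'_qˣ))` for some finite Galois `F' ⊇ F`. -/
theorem mem_ShSub_iff [FiniteDimensional (ZMod p) c.M] (hp2 : p ≠ 2) (L : c.Idx)
    (x : H2 (coeff c.M L.1)) :
    x ∈ c.ShSub L ↔ ∀ q : S, ∃ (S' : Finset Nat.Primes) (hS : S ⊆ S') (L' : Level S')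
      (h : Level.ofLE hS L.1 ≤ L'),
      locInf (L := Level.ofLE hS L.1) h q.1 (Nq c L q.1) (xq c hμ L q.1 x) = 0 := by
  have h1 : x ∈ c.ShSub L ↔ infl₂ c.M L.1 x ∈ sha₂ S c.M := Iff.rfl
  rw [h1, infl₂_mem_sha₂_iff c.M (two_ne_zero_zmod hp2) L.1 (c.hM_at L) x]
  refine forall_congr' fun q => ?_
  constructor
  · rintro ⟨N, h, hx⟩
    obtain ⟨S', hS, hur⟩ := exists_isUnramifiedOutside_ge S N.F N.fin
    let L' : Level S' := ⟨N.F, hur, N.normalU⟩
    have h' : Level.ofLE hS L.1 ≤ L' := h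
    exact ⟨S', hS, L', h', (locInf_xq_eq_zero_iff c hμ L q.1 hS L' h' x).2 hx⟩
  · rintro ⟨S', hS, L', h, hx⟩
    exact ⟨nLevelOf L', h, (locInf_xq_eq_zero_iff c hμ L q.1 hS L' h x).1 hx⟩

/-- `N_F` is finite. -/
theorem finite_Nq [FiniteDimensional (ZMod p) c.M] (L : c.Idx) (q : Nat.Primes) :
    Finite (Nq c L q).V := by
  haveI : Finite c.M.V := Module.finite_of_finite (ZMod p)
  haveI : Finite (Module.Dual (ZMod p) c.M.V) := Module.finite_of_finite (ZMod p)
  haveI : Finite c.N.V := inferInstanceAs (Finite (Module.Dual (ZMod p) c.M.V))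
  exact H719.finite_NL c L

/-- **LIM5 (i)**, modulo the description of `K_F` by the local transition maps. -/
theorem lim5i_of_KSub [FiniteDimensional (ZMod p) c.M] (hp2 : p ≠ 2) (hLoc : LocalSpec p)
    (hK : ∀ (L : c.Idx) (y : E2 (c.NL L) (sUnits L.1)),
      y ∈ c.KSub L ↔ ∀ q : S, yq c L q.1 y = 0) :
    Lim5iSpec c hμ := by
  intro L x
  rw [mem_ShSub_iff c hμ hp2 L x, hK L (eFun c hμ L x)]
  refine forall_congr' fun q => ?_
  exact (edge_eq_zero_iff_exists_locInf (Fact.out : p.Prime) hLoc L.1 q.1 (Nq c L q.1)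
    (finite_Nq c L q.1) (H719.nsmul_NL_eq_zero c L) (isEdge_xq_yq c hμ L q.1 x)).symm

end

end Fermat.Agent.S55.E1.H603
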