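/-
S55 / engine E1 / block LIM, leaf LIM5 (helper603): FINAL ASSEMBLY.

`lim5 : Lim.LIM5Spec` : for every good context there is a morphism of systems
`e : Ш²_F → K_F` which is eventually injective and eventually surjective.

Inputs (all on main): `Lim5Defs` (`eFun`, `lim5_of_specs`), `Lim5Compat` (`lim5Compat`),
`Lim5Loc` (`lim5i_of_KSub`), helper719 `Lim5K` (`mem_KSub_iff`), helper423 `Lim5Tower`
(`lim5_ii_inf`, `lim5_iii_isEdge`), helper304 `alg1`, helper895 ALG9/ALG10Edge.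
Complete proofs only.
-/
import Fermat.Agent.S55.E1.H603.Lim5Loc
import Fermat.Agent.S55.E1.H719.Lim5K
import Fermat.Agent.S55.E1.H423.Lim5Tower
import Fermat.Agent.S55.E1.H304.Alg1
import Fermat.Agent.S55.E1.SpecLim

set_option autoImplicit false
set_option linter.style.haveILetI false

open CategoryTheory CategoryTheory.Limits groupCohomology ExtCitation

namespace Fermat.Agent.S55.E1.H603

open Fermat.Agent.S55.E1 Fermat.Agent.S55.Tow Fermat.Agent.S55.E1.Lim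

noncomputable section

variable {S : Finset Nat.Primes} {p : ℕ} [Fact p.Prime] (c : Ctx S p) (hμ : c.base.HasMu p)

/-- **LIM5 (i).** -/
theorem lim5i [FiniteDimensional (ZMod p) c.M] (hp2 : p ≠ 2) (hLoc : LocalSpec p) :
    Lim5iSpec c hμ :=
  lim5i_of_KSub c hμ hp2 hLoc (fun L y => H719.mem_KSub_iff c L y)

theorem finite_NL_of_fin [FiniteDimensional (ZMod p) c.M] (L : c.Idx) : Finite (c.NL L).V :=
  finite_Nq c L ⟨2, Nat.prime_two⟩

theorem stdR_NL_finite [FiniteDimensional (ZMod p) c.M] (L : c.Idx) :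
    @Module.Finite ℤ (stdR (c.NL L)).V _ _ (stdR (c.NL L)).hV2 :=
  (H304.alg1 L.1.Gal (c.NL L) (finite_NL_of_fin c L)).2.1

/-- **LIM5 (ii).** -/
theorem lim5ii [FiniteDimensional (ZMod p) c.M] (hdiv : SUnitsDivSpec S p) :
    Lim5iiSpec c hμ := by
  intro L x hx
  have hp : p.Prime := Fact.out
  have hE : IsEdge (thetaH2 c hμ L x) (0 : E2 (c.NL L) (sUnits L.1)) :=
    hx ▸ isEdge_eFun c hμ L x
  obtain ⟨L₁, h₁, hL₁⟩ := H423.lim5_ii_inf H895.Final.alg10Edge hp hdiv L.1 (c.NL L)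
    (stdR_NL_finite c L) _ hE
  let L' : c.Idx := ⟨L₁, L.2.trans h₁⟩
  have h : L ≤ L' := h₁
  refine ⟨L', h, ?_⟩
  have h0 := hL₁ L₁ h₁ le_rfl (c.NL L') (c.ν h) (H719.nsmul_NL_eq_zero c L')
  apply (thetaH2_bijective c hμ L').1
  have e := thetaH2_tr₂ c hμ h x
  exact e.trans (h0.trans (map_zero _).symm)

/-- **LIM5 (iii).** -/
theorem lim5iii [FiniteDimensional (ZMod p) c.M] (hdiv : SUnitsDivSpec S p) :
    Lim5iiiSpec c hμ := by
  intro L y
  have hp : p.Prime := Fact.out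
  obtain ⟨L₁, h₁, hL₁⟩ := H423.lim5_iii_isEdge hp hdiv L.1 (c.NL L) (stdR_NL_finite c L) y
  let L' : c.Idx := ⟨L₁, L.2.trans h₁⟩
  have h : L ≤ L' := h₁
  obtain ⟨x', hx'⟩ := hL₁ L₁ h₁ le_rfl (c.NL L') (c.ν h) (H719.nsmul_NL_eq_zero c L')
  obtain ⟨x₀, hx₀⟩ := (thetaH2_bijective c hμ L').2 x'
  refine ⟨L', h, x₀, ?_⟩
  change edgeFun (c.NL L') (sUnits L'.1) (thetaH2 c hμ L' x₀) = _
  rw [hx₀]
  exact edgeFun_eq hx'

include hμ in
/-- **LIM5**, for a context with `μ_p` at the base level. -/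
theorem lim5_ctx [FiniteDimensional (ZMod p) c.M] (hp2 : p ≠ 2) (hLoc : LocalSpec p)
    (hdiv : SUnitsDivSpec S p) :
    ∃ e : AddSys.Hom c.sysSh c.sysK, e.EvInj ∧ e.EvSurj :=
  lim5_of_specs c hμ (lim5i c hμ hp2 hLoc) (lim5ii c hμ hdiv) (lim5iii c hμ hdiv)
    (lim5Compat c hμ)

/-- **LIM5.** -/
theorem lim5 : LIM5Spec := by
  intro p _ S c hc
  haveI : Module.Finite (ZMod p) c.M := hc.fin
  exact lim5_ctx c hc.mu hc.hp2 hc.loc hc.div

end

end Fermat.Agent.S55.E1.H603
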